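/-
FLTREG package PID (helper19): generic tools to prove that the ring of integers of a cyclotomic
field of prime conductor is a PID, via the Minkowski bound criterion of Mathlib and explicit
Kummer-Dedekind primes.
-/
import Mathlib

namespace Fermat.Agent.Kummer

open NumberField Ideal Module NumberField.InfinitePlace Nat Real Polynomial RingOfIntegers

section criterion

variable (q : ℕ) [hq : Fact q.Prime] (K : Type*) [Field K] [NumberField K]
  [hK : IsCyclotomicExtension {q} ℚ K]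

/-- Generic criterion: `𝓞 K` is a PID for `K` the `q`-th cyclotomic field (`q` prime) as soon as
every prime `ℓ ≠ q` below a bound `B` for the Minkowski constant either has all its powers
`ℓ ^ k ≤ B` (`k ≥ 1`) different from `1` modulo `q`, or has a principal prime above it. -/
theorem pid_of_cyclotomic_prime (B : ℕ)
    (hB : ⌊(4 / π) ^ nrComplexPlaces K *
      ((finrank ℚ K)! / (finrank ℚ K) ^ (finrank ℚ K) * √|discr K|)⌋₊ ≤ B)
    (h : ∀ ℓ ∈ Finset.Icc 1 B, ℓ.Prime → ℓ ≠ q →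
      (∀ k, 1 ≤ k → ℓ ^ k ≤ B → (ℓ : ZMod q) ^ k ≠ 1) ∨
      ∃ P ∈ primesOver (span {(ℓ : ℤ)}) (𝓞 K), Submodule.IsPrincipal P) :
    IsPrincipalIdealRing (𝓞 K) := by
  have : IsGalois ℚ K := IsCyclotomicExtension.isGalois {q} ℚ K
  apply RingOfIntegers.isPrincipalIdealRing_of_isPrincipal_of_lt_or_isPrincipal_of_mem_primesOver_of_mem_Icc
  intro ℓ hℓmem hℓ
  have hℓB : ℓ ∈ Finset.Icc 1 B := by
    rw [Finset.mem_Icc] at hℓmem ⊢
    exact ⟨hℓmem.1, hℓmem.2.trans hB⟩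
  have : Fact ℓ.Prime := ⟨hℓ⟩
  by_cases hℓq : ℓ = q
  · -- the ramified prime
    subst hℓq
    have hζ := IsCyclotomicExtension.zeta_spec ℓ ℚ K
    have : (span {(ℓ : ℤ)}).IsPrime :=
      (span_singleton_prime (by exact_mod_cast hℓ.ne_zero)).2 (Nat.prime_iff_prime_int.1 hℓ)
    obtain ⟨⟨P, hP1, hP2⟩⟩ := (span {(ℓ : ℤ)}).nonempty_primesOver (S := 𝓞 K)
    refine ⟨P, ⟨hP1, hP2⟩, Or.inr ?_⟩
    rw [IsCyclotomicExtension.Rat.eq_span_zeta_sub_one_of_liesOver' ℓ K hζ P]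
    exact ⟨⟨_, rfl⟩⟩
  · rcases h ℓ hℓB hℓ hℓq with h1 | ⟨P, hP, hPp⟩
    · have : (span {(ℓ : ℤ)}).IsPrime :=
        (span_singleton_prime (by exact_mod_cast hℓ.ne_zero)).2 (Nat.prime_iff_prime_int.1 hℓ)
      obtain ⟨⟨P, hP1, hP2⟩⟩ := (span {(ℓ : ℤ)}).nonempty_primesOver (S := 𝓞 K)
      refine ⟨P, ⟨hP1, hP2⟩, Or.inl ?_⟩
      have hndvd : ¬ ℓ ∣ q := by
        intro hd
        rcases (Nat.dvd_prime hq.out).1 hd with h1' | h1'
        · exact hℓ.one_lt.ne' h1'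
        · exact hℓq h1'
      have : NeZero q := ⟨hq.out.ne_zero⟩
      rw [IsCyclotomicExtension.Rat.inertiaDeg_eq_of_not_dvd ℓ K P hndvd]
      by_contra hcon
      rw [not_lt] at hcon
      have hcop : IsUnit (ℓ : ZMod q) := by
        rw [ZMod.isUnit_iff_coprime]
        exact (Nat.coprime_primes hℓ hq.out).2 hℓq
      have hpos : 0 < orderOf (ℓ : ZMod q) := by
        rw [orderOf_pos_iff]
        exact hcop.isOfFinOrder
      exact h1 _ hpos (hcon.trans hB) (pow_orderOf_eq_one _)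
    · exact ⟨P, hP, Or.inr hPp⟩

end criterion


section minkowski

variable (q : ℕ) [hq : Fact q.Prime] (K : Type*) [Field K] [NumberField K]
  [hK : IsCyclotomicExtension {q} ℚ K]

/-- Upper bound for the floor of the Minkowski constant of the `q`-th cyclotomic field. -/
theorem minkowski_floor_le (B : ℕ) (s : ℝ) (hs : 0 ≤ s) (hs2 : (q : ℝ) ^ (q - 2) ≤ s ^ 2)
    (hlt : (4 / 3.1415 : ℝ) ^ ((q - 1) / 2) *
      (((q - 1)! : ℝ) / ((q - 1 : ℕ) : ℝ) ^ (q - 1) * s) < B + 1) :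
    ⌊(4 / π) ^ nrComplexPlaces K *
      ((finrank ℚ K)! / (finrank ℚ K) ^ (finrank ℚ K) * √|discr K|)⌋₊ ≤ B := by
  have hq0 : NeZero q := ⟨hq.out.ne_zero⟩
  have hfin : finrank ℚ K = q - 1 := by
    rw [IsCyclotomicExtension.finrank (n := q) K
      (Polynomial.cyclotomic.irreducible_rat hq.out.pos), Nat.totient_prime hq.out]
  have hnr : nrComplexPlaces K = (q - 1) / 2 := by
    rw [IsCyclotomicExtension.Rat.nrComplexPlaces_eq_totient_div_two q K,
      Nat.totient_prime hq.out]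
  have hdisc : |((discr K : ℤ) : ℝ)| = (q : ℝ) ^ (q - 2) := by
    rw [IsCyclotomicExtension.Rat.discr_prime q K]
    push_cast
    rw [abs_mul, abs_pow, abs_neg, abs_one, one_pow, one_mul, abs_pow, Nat.abs_cast]
  rw [hfin, hnr, hdisc]
  have hsqrt : √((q : ℝ) ^ (q - 2)) ≤ s := by
    rw [Real.sqrt_le_left hs]
    exact hs2
  have h4 : (4 / π : ℝ) ≤ 4 / 3.1415 := by
    apply div_le_div_of_nonneg_left (by norm_num) (by norm_num)
    exact Real.pi_gt_d4.le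
  have hpos : (0 : ℝ) ≤ 4 / π := by positivity
  have hle : (4 / π) ^ ((q - 1) / 2) *
      (((q - 1)! : ℝ) / ((q - 1 : ℕ) : ℝ) ^ (q - 1) * √((q : ℝ) ^ (q - 2))) ≤
      (4 / 3.1415 : ℝ) ^ ((q - 1) / 2) *
      (((q - 1)! : ℝ) / ((q - 1 : ℕ) : ℝ) ^ (q - 1) * s) := by
    gcongr
  have hlt' := lt_of_le_of_lt hle hlt
  apply Nat.le_of_lt_succ
  rw [Nat.floor_lt (by positivity)]
  push_cast
  exact hlt'

end minkowski

theorem span_pair_eq_span_singleton_of_certificate {R : Type*} [CommRing R]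
    (a b α β γ x y : R) (h1 : a = α * β) (h2 : b = α * γ) (h3 : α = a * x + b * y) :
    span {a, b} = span {α} := by
  apply le_antisymm
  · rw [span_le]
    intro z hz
    rcases hz with rfl | hz
    · exact mem_span_singleton.2 ⟨β, h1⟩
    · rw [Set.mem_singleton_iff] at hz
      subst hz
      exact mem_span_singleton.2 ⟨γ, h2⟩
  · rw [span_singleton_le_iff_mem, mem_span_pair]
    exact ⟨x, y, by rw [h3]; ring⟩

section kd

variable {q : ℕ} [hq : Fact q.Prime] {K : Type*} [Field K] [NumberField K]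
  [hK : IsCyclotomicExtension {q} ℚ K] {ζ : K} (hζ : IsPrimitiveRoot ζ q)

omit hK in
include hζ in
theorem minpoly_toInteger_eq_cyclotomic :
    minpoly ℤ hζ.toInteger = cyclotomic q ℤ := by
  rw [cyclotomic_eq_minpoly hζ hq.out.pos, ← RingOfIntegers.minpoly_coe hζ.toInteger]
  rfl

/-- Kummer-Dedekind for the `q`-th cyclotomic field: `(ℓ, Q(ζ))` is a prime above `ℓ` whenever
`Q` is monic and its reduction mod `ℓ` is an irreducible factor of the cyclotomic polynomial. -/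
theorem span_pair_mem_primesOver (ℓ : ℕ) [hℓ : Fact ℓ.Prime] (Q : ℤ[X]) (hQm : Q.Monic)
    (hQirr : Irreducible (Q.map (Int.castRingHom (ZMod ℓ))))
    (hQdvd : Q.map (Int.castRingHom (ZMod ℓ)) ∣ cyclotomic q (ZMod ℓ)) :
    span {(ℓ : 𝓞 K), aeval hζ.toInteger Q} ∈ primesOver (span {(ℓ : ℤ)}) (𝓞 K) := by
  have hq0 : NeZero q := ⟨hq.out.ne_zero⟩
  have h₁ : ¬ ℓ ∣ exponent hζ.toInteger := by
    rw [exponent_eq_one_iff.mpr <| IsCyclotomicExtension.Rat.adjoin_singleton_eq_top hζ]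
    exact hℓ.out.not_dvd_one
  have hQ : Q.map (Int.castRingHom (ZMod ℓ)) ∈ monicFactorsMod hζ.toInteger ℓ := by
    rw [Multiset.mem_toFinset, Polynomial.mem_normalizedFactors_iff
      (map_monic_ne_zero (minpoly.monic hζ.toInteger.isIntegral))]
    refine ⟨hQirr, hQm.map _, ?_⟩
    rw [minpoly_toInteger_eq_cyclotomic hζ, map_cyclotomic_int]
    exact hQdvd
  have := ((NumberField.Ideal.primesOverSpanEquivMonicFactorsMod h₁).symm ⟨_, hQ⟩).prop
  rwa [NumberField.Ideal.primesOverSpanEquivMonicFactorsMod_symm_apply_eq_span] at this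

/-- A principal prime above `ℓ` from an explicit certificate. -/
theorem exists_principal_of_certificate (ℓ : ℕ) [hℓ : Fact ℓ.Prime] (Q : ℤ[X]) (hQm : Q.Monic)
    (hQirr : Irreducible (Q.map (Int.castRingHom (ZMod ℓ))))
    (hQdvd : Q.map (Int.castRingHom (ZMod ℓ)) ∣ cyclotomic q (ZMod ℓ))
    (α β γ x y : 𝓞 K) (h1 : (ℓ : 𝓞 K) = α * β) (h2 : aeval hζ.toInteger Q = α * γ)
    (h3 : α = ℓ * x + aeval hζ.toInteger Q * y) :
    ∃ P ∈ primesOver (span {(ℓ : ℤ)}) (𝓞 K), Submodule.IsPrincipal P := by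
  refine ⟨_, span_pair_mem_primesOver hζ ℓ Q hQm hQirr hQdvd, ?_⟩
  rw [span_pair_eq_span_singleton_of_certificate _ _ α β γ x y h1 h2 h3]
  exact ⟨⟨α, rfl⟩⟩

/-- A principal prime of degree one above `ℓ` from an explicit certificate. -/
theorem exists_principal_of_linear_certificate (ℓ : ℕ) [hℓ : Fact ℓ.Prime] (a : ℤ)
    (ha : ∑ i ∈ Finset.range q, (a : ZMod ℓ) ^ i = 0)
    (α β γ x y : 𝓞 K) (h1 : (ℓ : 𝓞 K) = α * β) (h2 : hζ.toInteger - a = α * γ)
    (h3 : α = ℓ * x + (hζ.toInteger - a) * y) :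
    ∃ P ∈ primesOver (span {(ℓ : ℤ)}) (𝓞 K), Submodule.IsPrincipal P := by
  have hev : aeval hζ.toInteger (X - C a : ℤ[X]) = hζ.toInteger - a := by
    simp
  have hmap : (X - C a : ℤ[X]).map (Int.castRingHom (ZMod ℓ)) = X - C (a : ZMod ℓ) := by
    simp
  refine exists_principal_of_certificate hζ ℓ (X - C a) (monic_X_sub_C a) ?_ ?_ α β γ x y h1
    (by rw [hev]; exact h2) (by rw [hev]; exact h3)
  · rw [hmap]; exact irreducible_X_sub_C _
  · rw [hmap, dvd_iff_isRoot, IsRoot.def, cyclotomic_prime, eval_geom_sum]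
    exact ha

end kd

section decide

/-- `Good q B K₀ ℓ`: no power `ℓ ^ k ≤ B` with `1 ≤ k < K₀` is `1` modulo `q`. -/
def Good (q B K₀ ℓ : ℕ) : Prop :=
  ∀ k < K₀, 1 ≤ k → ℓ ^ k ≤ B → (ℓ : ZMod q) ^ k ≠ 1

instance (q B K₀ ℓ : ℕ) : Decidable (Good q B K₀ ℓ) := by
  unfold Good; infer_instance

theorem Good.pow_ne_one {q B K₀ ℓ : ℕ} (h : Good q B K₀ ℓ) (hB : B < 2 ^ K₀) (hℓ : 2 ≤ ℓ) :
    ∀ k, 1 ≤ k → ℓ ^ k ≤ B → (ℓ : ZMod q) ^ k ≠ 1 := by
  intro k hk hle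
  refine h k ?_ hk hle
  by_contra hcon
  rw [not_lt] at hcon
  have h1 : 2 ^ K₀ ≤ 2 ^ k := Nat.pow_le_pow_right (by norm_num) hcon
  have h2 : 2 ^ k ≤ ℓ ^ k := Nat.pow_le_pow_left hℓ k
  omega

variable (q : ℕ) [hq : Fact q.Prime] (K : Type*) [Field K] [NumberField K]
  [hK : IsCyclotomicExtension {q} ℚ K]

/-- Decidable form of the criterion: all `ℓ ≤ B` are `Good` except those in a list `L`, which
are either composite or have a principal prime above them. -/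
theorem pid_of_cyclotomic_prime_of_list (B K₀ : ℕ) (hBK : B < 2 ^ K₀)
    (hB : ⌊(4 / π) ^ nrComplexPlaces K *
      ((finrank ℚ K)! / (finrank ℚ K) ^ (finrank ℚ K) * √|discr K|)⌋₊ ≤ B)
    (L : List ℕ) (hL : ∀ ℓ ∈ Finset.Icc 2 B, Good q B K₀ ℓ ∨ ℓ ∈ L)
    (hcert : ∀ ℓ ∈ L, ℓ.Prime → ℓ ≠ q →
      ∃ P ∈ primesOver (span {(ℓ : ℤ)}) (𝓞 K), Submodule.IsPrincipal P) :
    IsPrincipalIdealRing (𝓞 K) := by
  refine pid_of_cyclotomic_prime q K B hB ?_
  intro ℓ hℓ hp hne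
  have h2 : 2 ≤ ℓ := hp.two_le
  have hmem : ℓ ∈ Finset.Icc 2 B := by
    rw [Finset.mem_Icc] at hℓ ⊢
    exact ⟨h2, hℓ.2⟩
  rcases hL ℓ hmem with hg | hl
  · exact Or.inl (hg.pow_ne_one hBK h2)
  · exact Or.inr (hcert ℓ hl hp hne)

end decide

end Fermat.Agent.Kummer
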