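/-
FLTREG package PID (helper19): the ring of integers of the 11-th cyclotomic field is a PID.
The Minkowski bound is `58`; the only prime to certify is `23 = N(1 + ζ + ζ ^ 3)`.
-/
import Fermat.Agent.Kummer.PIDCore

namespace Fermat.Agent.Kummer

open NumberField Ideal

theorem root_eleven_23 : ∑ i ∈ Finset.range 11, (((4 : ℤ) : ZMod 23)) ^ i = 0 := by decide

/-- A principal prime above `23` in the 11-th cyclotomic field: `(23, ζ - 4) = (1 + ζ + ζ ^ 3)`. -/
theorem exists_principal_eleven_23 (K : Type*) [Field K] [NumberField K]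
    [IsCyclotomicExtension {11} ℚ K] :
    ∃ P ∈ primesOver (span {((23 : ℕ) : ℤ)}) (𝓞 K), Submodule.IsPrincipal P := by
  have : Fact (Nat.Prime 11) := ⟨by norm_num⟩
  have : Fact (Nat.Prime 23) := ⟨by norm_num⟩
  have hζ := IsCyclotomicExtension.zeta_spec 11 ℚ K
  obtain ⟨z, hz⟩ : ∃ z : 𝓞 K, z = hζ.toInteger := ⟨_, rfl⟩
  have hΦ : 1 + z + z ^ 2 + z ^ 3 + z ^ 4 + z ^ 5 + z ^ 6 + z ^ 7 + z ^ 8 + z ^ 9 + z ^ 10 = 0 := by
    have := hζ.toInteger_isPrimitiveRoot.geom_sum_eq_zero (by norm_num)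
    rw [← hz] at this
    simpa [Finset.sum_range_succ] using this
  refine exists_principal_of_linear_certificate hζ 23 4 root_eleven_23 (1 + z + z ^ 3)
    (-2 - 14 * z - 17 * z ^ 2 - 12 * z ^ 3 - 5 * z ^ 4 - 9 * z ^ 5 - 10 * z ^ 6 - 16 * z ^ 7
      - 6 * z ^ 8 - 15 * z ^ 9)
    (1 + 3 * z + 3 * z ^ 2 + 2 * z ^ 3 + z ^ 4 + 2 * z ^ 5 + 2 * z ^ 6 + 3 * z ^ 7 + z ^ 8
      + 3 * z ^ 9)
    3 (17 + 4 * z + z ^ 2) ?_ ?_ ?_
  · push_cast
    linear_combination (-(-25 + 9 * z - 15 * z ^ 2)) * hΦ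
  · rw [← hz]
    push_cast
    linear_combination (-(5 - 2 * z + 3 * z ^ 2)) * hΦ
  · rw [← hz]
    push_cast
    ring

/-- If `IsCyclotomicExtension {11} ℚ K` then `𝓞 K` is a principal ideal domain. -/
theorem pid_eleven (K : Type*) [Field K] [NumberField K] [IsCyclotomicExtension {11} ℚ K] :
    IsPrincipalIdealRing (𝓞 K) := by
  have : Fact (Nat.Prime 11) := ⟨by norm_num⟩
  refine pid_of_cyclotomic_prime_of_list 11 K 58 6 (by norm_num)
    (minkowski_floor_le 11 K 58 48559 (by norm_num) (by norm_num) (by norm_num)) [12, 23, 34, 45, 56] ?_ ?_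
  · decide
  · intro ℓ hℓ hp hne
    simp only [List.mem_cons, List.not_mem_nil, or_false] at hℓ
    rcases hℓ with rfl | rfl | rfl | rfl | rfl
    all_goals first
      | exact exists_principal_eleven_23 K
      | exact absurd hp (by norm_num)

end Fermat.Agent.Kummer
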