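/-
FLTREG package PID (helper19): the ring of integers of the 13-th cyclotomic field is a PID.
The Minkowski bound is `306`; the primes to certify are `3` (inertia degree `3`,
`27 = N(1 + ζ - ζ ^ 3)`) and `53, 79, 131, 157` (degree one).
-/
import Fermat.Agent.Kummer.PIDCore

namespace Fermat.Agent.Kummer

open NumberField Ideal Polynomial

/-- The relation satisfied by a primitive 13-th root of unity in `𝓞 K`. -/
theorem geom_sum_thirteen {K : Type*} [Field K] [NumberField K] {ζ : K}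
    (hζ : IsPrimitiveRoot ζ 13) (z : 𝓞 K) (hz : z = hζ.toInteger) :
    1 + z + z ^ 2 + z ^ 3 + z ^ 4 + z ^ 5 + z ^ 6 + z ^ 7 + z ^ 8 + z ^ 9 + z ^ 10 + z ^ 11
      + z ^ 12 = 0 := by
  have := hζ.toInteger_isPrimitiveRoot.geom_sum_eq_zero (by norm_num)
  rw [← hz] at this
  simpa [Finset.sum_range_succ] using this

theorem root_thirteen_53 : ∑ i ∈ Finset.range 13, (((36 : ℤ) : ZMod 53)) ^ i = 0 := by decide

/-- A principal prime above `53` in the 13-th cyclotomic field: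
`(53, ζ - 36) = (1 + ζ + ζ ^ 3)`. -/
theorem exists_principal_thirteen_53 (K : Type*) [Field K] [NumberField K]
    [IsCyclotomicExtension {13} ℚ K] :
    ∃ P ∈ primesOver (span {((53 : ℕ) : ℤ)}) (𝓞 K), Submodule.IsPrincipal P := by
  have : Fact (Nat.Prime 13) := ⟨by norm_num⟩
  have : Fact (Nat.Prime 53) := ⟨by norm_num⟩
  have hζ := IsCyclotomicExtension.zeta_spec 13 ℚ K
  obtain ⟨z, hz⟩ : ∃ z : 𝓞 K, z = hζ.toInteger := ⟨_, rfl⟩
  have hΦ := geom_sum_thirteen hζ z hz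
  refine exists_principal_of_linear_certificate hζ 53 36 root_thirteen_53
    (1 + z + z ^ 3)
    (1 - 24 * z - 35 * z ^ 2 - 25 * z ^ 3 - 10 * z ^ 4 - 14 * z ^ 5 - 20 * z ^ 6 - 29 * z ^ 7
      - 16 * z ^ 8 - 23 * z ^ 9 - 7 * z ^ 10 - 36 * z ^ 11)
    (17 * z + 24 * z ^ 2 + 17 * z ^ 3 + 7 * z ^ 4 + 10 * z ^ 5 + 14 * z ^ 6 + 20 * z ^ 7 + 11 * z ^ 8
      + 16 * z ^ 9 + 5 * z ^ 10 + 25 * z ^ 11)
    (881) (1297 + 36 * z + z ^ 2) ?_ ?_ ?_
  · push_cast
    linear_combination (-(-52 + 29 * z - 36 * z ^ 2)) * hΦ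
  · rw [← hz]
    push_cast
    linear_combination (-(36 - 20 * z + 25 * z ^ 2)) * hΦ
  · rw [← hz]
    push_cast
    ring

theorem root_thirteen_79 : ∑ i ∈ Finset.range 13, (((64 : ℤ) : ZMod 79)) ^ i = 0 := by decide

/-- A principal prime above `79` in the 13-th cyclotomic field:
`(79, ζ - 64) = (1 + ζ - ζ ^ 4)`. -/
theorem exists_principal_thirteen_79 (K : Type*) [Field K] [NumberField K]
    [IsCyclotomicExtension {13} ℚ K] :
    ∃ P ∈ primesOver (span {((79 : ℕ) : ℤ)}) (𝓞 K), Submodule.IsPrincipal P := by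
  have : Fact (Nat.Prime 13) := ⟨by norm_num⟩
  have : Fact (Nat.Prime 79) := ⟨by norm_num⟩
  have hζ := IsCyclotomicExtension.zeta_spec 13 ℚ K
  obtain ⟨z, hz⟩ : ∃ z : 𝓞 K, z = hζ.toInteger := ⟨_, rfl⟩
  have hΦ := geom_sum_thirteen hζ z hz
  refine exists_principal_of_linear_certificate hζ 79 64 root_thirteen_79
    (1 + z - z ^ 4)
    (24 - 25 * z - 27 * z ^ 2 + 10 * z ^ 3 - 3 * z ^ 4 - 39 * z ^ 5 - 5 * z ^ 6 - 2 * z ^ 7
      - 18 * z ^ 8 - 38 * z ^ 9 + 16 * z ^ 10 - 35 * z ^ 11)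
    (-19 + 21 * z + 22 * z ^ 2 - 8 * z ^ 3 + 3 * z ^ 4 + 32 * z ^ 5 + 4 * z ^ 6 + 2 * z ^ 7
      + 15 * z ^ 8 + 31 * z ^ 9 - 13 * z ^ 10 + 29 * z ^ 11)
    (-212369) (-262143 - 4096 * z - 64 * z ^ 2 - z ^ 3) ?_ ?_ ?_
  · push_cast
    linear_combination (-(-55 + 54 * z - 51 * z ^ 2 + 35 * z ^ 3)) * hΦ
  · rw [← hz]
    push_cast
    linear_combination (-(45 - 44 * z + 42 * z ^ 2 - 29 * z ^ 3)) * hΦ
  · rw [← hz]
    push_cast
    ring

theorem root_thirteen_131 : ∑ i ∈ Finset.range 13, (((80 : ℤ) : ZMod 131)) ^ i = 0 := by decide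

/-- A principal prime above `131` in the 13-th cyclotomic field:
`(131, ζ - 80) = (1 - ζ - ζ ^ 3)`. -/
theorem exists_principal_thirteen_131 (K : Type*) [Field K] [NumberField K]
    [IsCyclotomicExtension {13} ℚ K] :
    ∃ P ∈ primesOver (span {((131 : ℕ) : ℤ)}) (𝓞 K), Submodule.IsPrincipal P := by
  have : Fact (Nat.Prime 13) := ⟨by norm_num⟩
  have : Fact (Nat.Prime 131) := ⟨by norm_num⟩
  have hζ := IsCyclotomicExtension.zeta_spec 13 ℚ K
  obtain ⟨z, hz⟩ : ∃ z : 𝓞 K, z = hζ.toInteger := ⟨_, rfl⟩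
  have hΦ := geom_sum_thirteen hζ z hz
  refine exists_principal_of_linear_certificate hζ 131 80 root_thirteen_131
    (1 - z - z ^ 3)
    (111 + 78 * z + 17 * z ^ 2 + 67 * z ^ 3 + 84 * z ^ 4 + 40 * z ^ 5 + 46 * z ^ 6 + 69 * z ^ 7
      + 48 * z ^ 8 + 33 * z ^ 9 + 41 * z ^ 10 + 28 * z ^ 11)
    (-68 - 47 * z - 10 * z ^ 2 - 41 * z ^ 3 - 51 * z ^ 4 - 24 * z ^ 5 - 28 * z ^ 6 - 42 * z ^ 7
      - 29 * z ^ 8 - 20 * z ^ 9 - 25 * z ^ 10 - 17 * z ^ 11)
    (-3909) (-6401 - 80 * z - z ^ 2) ?_ ?_ ?_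
  · push_cast
    linear_combination (-(-20 - 13 * z - 28 * z ^ 2)) * hΦ
  · rw [← hz]
    push_cast
    linear_combination (-(12 + 8 * z + 17 * z ^ 2)) * hΦ
  · rw [← hz]
    push_cast
    ring

theorem root_thirteen_157 : ∑ i ∈ Finset.range 13, (((75 : ℤ) : ZMod 157)) ^ i = 0 := by decide

/-- A principal prime above `157` in the 13-th cyclotomic field:
`(157, ζ - 75) = (1 - ζ + ζ ^ 2 + ζ ^ 4)`. -/
theorem exists_principal_thirteen_157 (K : Type*) [Field K] [NumberField K]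
    [IsCyclotomicExtension {13} ℚ K] :
    ∃ P ∈ primesOver (span {((157 : ℕ) : ℤ)}) (𝓞 K), Submodule.IsPrincipal P := by
  have : Fact (Nat.Prime 13) := ⟨by norm_num⟩
  have : Fact (Nat.Prime 157) := ⟨by norm_num⟩
  have hζ := IsCyclotomicExtension.zeta_spec 13 ℚ K
  obtain ⟨z, hz⟩ : ∃ z : 𝓞 K, z = hζ.toInteger := ⟨_, rfl⟩
  have hΦ := geom_sum_thirteen hζ z hz
  refine exists_principal_of_linear_certificate hζ 157 75 root_thirteen_157
    (1 - z + z ^ 2 + z ^ 4)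
    (89 + 86 * z + 42 * z ^ 2 + 77 * z ^ 3 + 67 * z ^ 4 + 25 * z ^ 5 + 37 * z ^ 6 + 56 * z ^ 7
      + 73 * z ^ 8 + 113 * z ^ 9 + 124 * z ^ 10 + 76 * z ^ 11)
    (-43 - 41 * z - 20 * z ^ 2 - 37 * z ^ 3 - 32 * z ^ 4 - 12 * z ^ 5 - 18 * z ^ 6 - 27 * z ^ 7
      - 35 * z ^ 8 - 54 * z ^ 9 - 59 * z ^ 10 - 36 * z ^ 11)
    (201568) (421949 + 5626 * z + 75 * z ^ 2 + z ^ 3) ?_ ?_ ?_
  · push_cast
    linear_combination (-(-68 + 65 * z + 48 * z ^ 2 + 76 * z ^ 3)) * hΦ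
  · rw [← hz]
    push_cast
    linear_combination (-(32 - 31 * z - 23 * z ^ 2 - 36 * z ^ 3)) * hΦ
  · rw [← hz]
    push_cast
    ring
/-- `X ^ 3 - X - 1` is irreducible over `ZMod 3`. -/
theorem irreducible_cubic_mod_three :
    Irreducible ((X ^ 3 - X - 1 : ℤ[X]).map (Int.castRingHom (ZMod 3))) := by
  have hmap : (X ^ 3 - X - 1 : ℤ[X]).map (Int.castRingHom (ZMod 3)) = X ^ 3 - X - 1 := by
    simp
  rw [hmap]
  have hdeg : (X ^ 3 - X - 1 : (ZMod 3)[X]).natDegree = 3 := by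
    have h : (X ^ 3 - X - 1 : (ZMod 3)[X]) = X ^ 3 + (-X - 1) := by ring
    rw [h, natDegree_add_eq_left_of_degree_lt]
    · simp
    · rw [degree_X_pow]
      refine lt_of_le_of_lt (degree_sub_le _ _) ?_
      simp only [degree_neg, degree_X, degree_one]
      exact max_lt (by norm_num) (by norm_num)
  apply irreducible_of_degree_le_three_of_not_isRoot
  · rw [hdeg]; decide
  · intro x
    simp only [IsRoot.def, eval_sub, eval_pow, eval_X, eval_one]
    revert x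
    decide

/-- `X ^ 3 - X - 1` divides the 13-th cyclotomic polynomial modulo `3`. -/
theorem cubic_dvd_cyclotomic_mod_three :
    (X ^ 3 - X - 1 : ℤ[X]).map (Int.castRingHom (ZMod 3)) ∣ cyclotomic 13 (ZMod 3) := by
  have hmap : (X ^ 3 - X - 1 : ℤ[X]).map (Int.castRingHom (ZMod 3)) = X ^ 3 - X - 1 := by
    simp
  have : Fact (Nat.Prime 13) := ⟨by norm_num⟩
  have h3 : (3 : (ZMod 3)[X]) = 0 := by
    have h : ((3 : ℕ) : (ZMod 3)[X]) = 0 := CharP.cast_eq_zero _ 3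
    exact_mod_cast h
  rw [hmap, cyclotomic_prime]
  refine ⟨-1 - X ^ 2 - X ^ 3 + X ^ 5 - X ^ 7 + X ^ 8 + X ^ 9, ?_⟩
  simp only [Finset.sum_range_succ, Finset.sum_range_zero]
  linear_combination (X ^ 5 + X ^ 6 + X ^ 9 + X ^ 10 : (ZMod 3)[X]) * h3

/-- A principal prime above `3` in the 13-th cyclotomic field:
`(3, ζ ^ 3 - ζ - 1) = (1 + ζ - ζ ^ 3)`. -/
theorem exists_principal_thirteen_3 (K : Type*) [Field K] [NumberField K]
    [IsCyclotomicExtension {13} ℚ K] :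
    ∃ P ∈ primesOver (span {((3 : ℕ) : ℤ)}) (𝓞 K), Submodule.IsPrincipal P := by
  have : Fact (Nat.Prime 13) := ⟨by norm_num⟩
  have : Fact (Nat.Prime 3) := ⟨by norm_num⟩
  have hζ := IsCyclotomicExtension.zeta_spec 13 ℚ K
  obtain ⟨z, hz⟩ : ∃ z : 𝓞 K, z = hζ.toInteger := ⟨_, rfl⟩
  have hΦ := geom_sum_thirteen hζ z hz
  have hmonic : (X ^ 3 - X - 1 : ℤ[X]).Monic := by
    have h : (X ^ 3 - X - 1 : ℤ[X]) = X ^ 3 + (-X - 1) := by ring
    rw [h]
    apply monic_X_pow_add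
    refine lt_of_le_of_lt (degree_sub_le _ _) ?_
    simp only [degree_neg, degree_X, degree_one]
    exact max_lt (by norm_num) (by norm_num)
  have hev : aeval hζ.toInteger (X ^ 3 - X - 1 : ℤ[X]) = z ^ 3 - z - 1 := by
    rw [hz]; simp
  refine exists_principal_of_certificate hζ 3 (X ^ 3 - X - 1) hmonic irreducible_cubic_mod_three
    cubic_dvd_cyclotomic_mod_three
    (1 + z - z ^ 3)
    (-1 - z ^ 2 - z ^ 3 - 2 * z ^ 5 - z ^ 7 - 2 * z ^ 8 + z ^ 9 - 3 * z ^ 10)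
    (-1) 0 (-1) ?_ ?_ ?_
  · push_cast
    linear_combination (-(-4 + 3 * z)) * hΦ
  · rw [hev]; ring
  · rw [hev]; ring

set_option maxRecDepth 100000 in
theorem good_thirteen : ∀ ℓ ∈ Finset.Icc 2 306, Good 13 306 9 ℓ ∨ ℓ ∈
    [3, 12, 14, 27, 40, 53, 66, 79, 92, 105, 118, 131, 144, 157, 170, 183, 196, 209, 222, 235,
      248, 261, 274, 287, 300] := by
  decide

/-- If `IsCyclotomicExtension {13} ℚ K` then `𝓞 K` is a principal ideal domain. -/
theorem pid_thirteen (K : Type*) [Field K] [NumberField K] [IsCyclotomicExtension {13} ℚ K] :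
    IsPrincipalIdealRing (𝓞 K) := by
  have : Fact (Nat.Prime 13) := ⟨by norm_num⟩
  refine pid_of_cyclotomic_prime_of_list 13 K 306 9 (by norm_num)
    (minkowski_floor_le 13 K 306 1338716 (by norm_num) (by norm_num) (by norm_num))
    [3, 12, 14, 27, 40, 53, 66, 79, 92, 105, 118, 131, 144, 157, 170, 183, 196, 209, 222, 235,
      248, 261, 274, 287, 300] good_thirteen ?_
  intro ℓ hℓ hp hne
  simp only [List.mem_cons, List.not_mem_nil, or_false] at hℓ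
  rcases hℓ with rfl | rfl | rfl | rfl | rfl | rfl | rfl | rfl | rfl | rfl | rfl | rfl | rfl |
    rfl | rfl | rfl | rfl | rfl | rfl | rfl | rfl | rfl | rfl | rfl | rfl
  all_goals first
    | exact exists_principal_thirteen_3 K
    | exact exists_principal_thirteen_53 K
    | exact exists_principal_thirteen_79 K
    | exact exists_principal_thirteen_131 K
    | exact exists_principal_thirteen_157 K
    | exact absurd hp (by norm_num)

end Fermat.Agent.Kummer
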