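/-
FLTREG package PID (helper19): the ring of integers of the 7-th cyclotomic field is a PID.
-/
import Fermat.Agent.Kummer.PIDCore

namespace Fermat.Agent.Kummer

open NumberField

/-- If `IsCyclotomicExtension {7} ℚ K` then `𝓞 K` is a principal ideal domain. -/
theorem pid_seven (K : Type*) [Field K] [NumberField K] [IsCyclotomicExtension {7} ℚ K] :
    IsPrincipalIdealRing (𝓞 K) := by
  have : Fact (Nat.Prime 7) := ⟨by norm_num⟩
  refine pid_of_cyclotomic_prime_of_list 7 K 4 3 (by norm_num)
    (minkowski_floor_le 7 K 4 130 (by norm_num) (by norm_num) (by norm_num)) [] ?_ ?_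
  · decide
  · intro ℓ hℓ
    simp at hℓ

end Fermat.Agent.Kummer
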