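import Mathlib

/-!
# Kummer's lemma via an index count — abstract group theory part

If an abelian group `G` is generated by `n` elements, `H` is a subgroup containing all `p`-th
powers, and there are `n` elements `η i` that are "independent modulo `H`", then `H` is exactly the
subgroup of `p`-th powers.
-/

namespace Fermat.Agent.Kummer.KLX

open scoped BigOperators

section Count

variable {G : Type*} [CommGroup G]

/-- Pure group theory: index count. -/
theorem exists_pow_eq_of_count {ι : Type*} [Fintype ι] (p n : ℕ) (hp : 0 < p) (H : Subgroup G)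
    (hH : ∀ g : G, g ^ p ∈ H)
    (gens : ι → G) (hgens : ∀ x : G, ∃ e : ι → ℤ, x = ∏ i, gens i ^ e i)
    (hcard : Fintype.card ι ≤ n)
    (η : Fin n → G)
    (hη : ∀ e : Fin n → ℤ, (∏ i, η i ^ e i) ∈ H → ∀ i, (p : ℤ) ∣ e i) :
    ∀ x ∈ H, ∃ y : G, x = y ^ p := by
  classical
  have : NeZero p := ⟨hp.ne'⟩
  set P : Subgroup G := (powMonoidHom p : G →* G).range with hP
  have hPH : P ≤ H := by
    rintro _ ⟨g, rfl⟩
    exact hH g
  have hpZ : (p : ℤ) ≠ 0 := by exact_mod_cast hp.ne'
  -- surjection onto G ⧸ P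
  let f : (ι → Fin p) → G ⧸ P := fun e => QuotientGroup.mk (∏ i, gens i ^ ((e i : ℕ)))
  have hf : Function.Surjective f := by
    intro q
    obtain ⟨x, rfl⟩ := QuotientGroup.mk_surjective q
    obtain ⟨e, rfl⟩ := hgens x
    refine ⟨fun i => ⟨((e i) % (p : ℤ)).toNat, ?_⟩, ?_⟩
    · have h1 : 0 ≤ (e i) % (p : ℤ) := Int.emod_nonneg _ hpZ
      have h2 : (e i) % (p : ℤ) < p := Int.emod_lt_of_pos _ (by exact_mod_cast hp)
      omega
    · simp only [f]
      rw [QuotientGroup.eq]
      refine ⟨∏ i, gens i ^ ((e i) / (p : ℤ)), ?_⟩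
      simp only [powMonoidHom_apply]
      rw [← Finset.prod_inv_distrib, ← Finset.prod_mul_distrib, ← Finset.prod_pow]
      refine Finset.prod_congr rfl fun i _ => ?_
      have h1 : 0 ≤ (e i) % (p : ℤ) := Int.emod_nonneg _ hpZ
      have h3 : (((e i) % (p : ℤ)).toNat : ℤ) = (e i) % (p : ℤ) := Int.toNat_of_nonneg h1
      rw [← zpow_natCast (gens i) ((e i) % (p : ℤ)).toNat, h3, ← zpow_natCast _ p, ← zpow_mul,
        ← zpow_neg, ← zpow_add]
      congr 1
      have := Int.emod_add_mul_ediv (e i) p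
      linarith [mul_comm ((e i) / (p : ℤ)) (p : ℤ)]
  have : Finite (G ⧸ P) := Finite.of_surjective f hf
  have hcardP : Nat.card (G ⧸ P) ≤ p ^ n := by
    have := Nat.card_le_card_of_surjective f hf
    have h2 : Nat.card (ι → Fin p) = p ^ Fintype.card ι := by simp
    rw [h2] at this
    exact this.trans (Nat.pow_le_pow_right hp hcard)
  -- injection into G ⧸ H
  have : P.FiniteIndex := Subgroup.finiteIndex_of_finite_quotient
  have : H.FiniteIndex := Subgroup.finiteIndex_of_le hPH
  have : Finite (G ⧸ H) := Subgroup.finite_quotient_of_finiteIndex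
  let g : (Fin n → Fin p) → G ⧸ H := fun e => QuotientGroup.mk (∏ i, η i ^ ((e i : ℕ)))
  have hg : Function.Injective g := by
    intro e e' hee'
    simp only [g] at hee'
    rw [QuotientGroup.eq] at hee'
    have h1 : (∏ i, η i ^ ((e i : ℕ)))⁻¹ * (∏ i, η i ^ ((e' i : ℕ)))
        = ∏ i, η i ^ (((e' i : ℕ) : ℤ) - ((e i : ℕ) : ℤ)) := by
      rw [← Finset.prod_inv_distrib, ← Finset.prod_mul_distrib]
      refine Finset.prod_congr rfl fun i _ => ?_
      rw [zpow_sub, zpow_natCast, zpow_natCast, mul_comm]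
    rw [h1] at hee'
    have h2 := hη _ hee'
    funext i
    have h3 := h2 i
    have h4 : ((e i : ℕ) : ℤ) < p := by exact_mod_cast (e i).2
    have h5 : ((e' i : ℕ) : ℤ) < p := by exact_mod_cast (e' i).2
    have h6 : (0 : ℤ) ≤ ((e i : ℕ) : ℤ) := by positivity
    have h7 : (0 : ℤ) ≤ ((e' i : ℕ) : ℤ) := by positivity
    obtain ⟨t, ht⟩ := h3
    have ht0 : t = 0 := by
      by_contra hne
      rcases lt_or_gt_of_ne hne with h | h
      · have : (p : ℤ) * t ≤ (p : ℤ) * (-1) :=
          mul_le_mul_of_nonneg_left (by omega) (by positivity)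
        nlinarith
      · have : (p : ℤ) * 1 ≤ (p : ℤ) * t :=
          mul_le_mul_of_nonneg_left (by omega) (by positivity)
        nlinarith
    rw [ht0, mul_zero] at ht
    apply Fin.ext
    omega
  have hcardH : p ^ n ≤ Nat.card (G ⧸ H) := by
    have := Nat.card_le_card_of_injective g hg
    simpa using this
  have hidx := Subgroup.relIndex_mul_index hPH
  rw [Subgroup.index_eq_card, Subgroup.index_eq_card] at hidx
  have hHpos : 0 < Nat.card (G ⧸ H) := Nat.card_pos
  have hrel : P.relIndex H = 1 := by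
    have h1 : P.relIndex H * Nat.card (G ⧸ H) ≤ 1 * Nat.card (G ⧸ H) := by
      rw [hidx, one_mul]; exact hcardP.trans hcardH
    have h2 : P.relIndex H ≤ 1 := Nat.le_of_mul_le_mul_right h1 hHpos
    have h3 : P.relIndex H ≠ 0 := by
      intro h0
      rw [h0, zero_mul] at hidx
      have : 0 < Nat.card (G ⧸ P) := Nat.card_pos
      omega
    omega
  have hHP : H ≤ P := Subgroup.relIndex_eq_one.mp hrel
  intro x hx
  obtain ⟨y, hy⟩ := hHP hx
  exact ⟨y, hy.symm⟩

end Count

end Fermat.Agent.Kummer.KLX
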