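import Mathlib
import Fermat.Agent.Kummer.KLXCount

/-!
# Kummer's lemma via an index count — abstract ring part

`A` a domain, `lam : A` a non-unit, non-zero element with `lam ^ (p-1) ∣ p`,
`lam ∣ n → p ∣ n` for integers `n`, and `α ^ p ≡ integer mod p` for all `α`.
Units with strictly increasing "exact levels" are independent modulo the subgroup `E0` of units
congruent to an integer mod `p`.
-/

namespace Fermat.Agent.Kummer.KLX

open scoped BigOperators

/-- The abstract setup. -/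
structure Setup (A : Type*) [CommRing A] (p : ℕ) (lam : A) : Prop where
  lam_ne_zero : lam ≠ 0
  not_isUnit : ¬ IsUnit lam
  pow_dvd : lam ^ (p - 1) ∣ (p : A)
  dvd_int : ∀ n : ℤ, lam ∣ (n : A) → (p : ℤ) ∣ n
  ppow : ∀ α : A, ∃ a : ℤ, (p : A) ∣ α ^ p - a

/-- `u` has exact level `k`: `u ≡ c + a * lam ^ k mod lam ^ (k+1)` with `p ∤ a`. -/
def HasLevel {A : Type*} [CommRing A] (p : ℕ) (lam : A) (u : A) (k : ℕ) : Prop :=
  ∃ c a : ℤ, ¬ (p : ℤ) ∣ a ∧ lam ^ (k + 1) ∣ u - c - a * lam ^ k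

section Core

variable {A : Type*} [CommRing A] [IsDomain A] {p : ℕ} [hp : Fact p.Prime] {lam : A}

lemma Setup.lam_dvd_p (S : Setup A p lam) : lam ∣ (p : A) := by
  have h1 : 1 ≤ p - 1 := by have := hp.out.two_le; omega
  exact (dvd_pow_self lam (by omega : p - 1 ≠ 0)).trans S.pow_dvd

lemma Setup.pow_dvd_p (S : Setup A p lam) {m : ℕ} (hm : m + 1 ≤ p) : lam ^ m ∣ (p : A) :=
  (pow_dvd_pow lam (by omega : m ≤ p - 1)).trans S.pow_dvd

/-- A unit congruent to an integer `c` mod `lam` has `p ∤ c`. -/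
lemma Setup.not_dvd_of_unit (S : Setup A p lam) {u : A} (hu : IsUnit u) {c : ℤ}
    (h : lam ∣ u - c) : ¬ (p : ℤ) ∣ c := by
  intro hpc
  apply S.not_isUnit
  have h1 : lam ∣ (c : A) := by
    obtain ⟨t, rfl⟩ := hpc
    push_cast
    exact (S.lam_dvd_p).mul_right _
  have h2 : lam ∣ u := by
    have := dvd_add h h1
    simpa using this
  exact isUnit_of_dvd_unit h2 hu

/-- The subgroup of units congruent to an integer modulo `p`. -/
def E0 (S : Setup A p lam) : Subgroup Aˣ where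
  carrier := {u | ∃ a : ℤ, (p : A) ∣ (u : A) - a}
  one_mem' := ⟨1, by simp⟩
  mul_mem' := by
    rintro u v ⟨a, ha⟩ ⟨b, hb⟩
    refine ⟨a * b, ?_⟩
    have : ((u * v : Aˣ) : A) - ((a * b : ℤ) : A) = ((u : A) - a) * v + a * ((v : A) - b) := by
      push_cast; ring
    rw [this]
    exact dvd_add (ha.mul_right _) (hb.mul_left _)
  inv_mem' := by
    rintro u ⟨a, ha⟩
    have hpa : ¬ (p : ℤ) ∣ a :=
      S.not_dvd_of_unit u.isUnit (S.lam_dvd_p.trans ha)
    have hcop : IsCoprime a (p : ℤ) := by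
      rw [isCoprime_comm]
      exact (Nat.prime_iff_prime_int.mp hp.out).coprime_iff_not_dvd.mpr hpa
    obtain ⟨x, y, hxy⟩ := hcop
    -- x * a + y * p = 1
    refine ⟨x, ?_⟩
    have h1 : ((u⁻¹ : Aˣ) : A) - (x : A)
        = ((u⁻¹ : Aˣ) : A) * ((p : A) * y - x * ((u : A) - a)) := by
      have hxy' : (x : A) * a + y * p = 1 := by exact_mod_cast congrArg (Int.cast (R := A)) hxy
      have huu : ((u⁻¹ : Aˣ) : A) * (u : A) = 1 := by simp
      linear_combination (x : A) * huu - ((u⁻¹ : Aˣ) : A) * hxy'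
    rw [h1]
    refine Dvd.dvd.mul_left ?_ _
    exact dvd_sub (dvd_mul_right _ _) (ha.mul_left _)

lemma mem_E0 (S : Setup A p lam) (u : Aˣ) : u ∈ E0 S ↔ ∃ a : ℤ, (p : A) ∣ (u : A) - a := Iff.rfl

lemma pow_mem_E0 (S : Setup A p lam) (u : Aˣ) : u ^ p ∈ E0 S := by
  obtain ⟨a, ha⟩ := S.ppow (u : A)
  exact ⟨a, by simpa using ha⟩

/-- power expansion modulo `lam ^ (k+1)`. -/
lemma pow_level {u : A} {c a : ℤ} {k : ℕ} (hk : 1 ≤ k)
    (h : lam ^ (k + 1) ∣ u - c - a * lam ^ k) (F : ℕ) :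
    lam ^ (k + 1) ∣ u ^ F - ((c : A) ^ F + F * (c : A) ^ (F - 1) * (a * lam ^ k)) := by
  have h1 : lam ^ (k + 1) ∣ u ^ F - ((c : A) + a * lam ^ k) ^ F := by
    refine Dvd.dvd.trans ?_ (sub_dvd_pow_sub_pow _ _ F)
    convert h using 1
    ring
  obtain ⟨K, hK⟩ := Polynomial.powAddExpansion (c : A) ((a : A) * lam ^ k) F
  have h2 : lam ^ (k + 1) ∣ ((c : A) + a * lam ^ k) ^ F
      - ((c : A) ^ F + F * (c : A) ^ (F - 1) * (a * lam ^ k)) := by
    rw [hK]
    have : lam ^ (k + 1) ∣ lam ^ (2 * k) := pow_dvd_pow lam (by omega)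
    obtain ⟨t, ht⟩ := this
    refine ⟨K * (a : A) ^ 2 * t, ?_⟩
    have : ((a : A) * lam ^ k) ^ 2 = (a : A) ^ 2 * lam ^ (2 * k) := by ring
    rw [add_sub_cancel_left, this, ht]
    ring
  have := dvd_add h1 h2
  convert this using 1
  ring

/-- The core independence statement, natural exponents `< p`. -/
theorem core (S : Setup A p lam) {n : ℕ} (η : Fin n → Aˣ) (k : Fin n → ℕ) (hk : StrictMono k)
    (hk1 : ∀ i, 1 ≤ k i) (hk2 : ∀ i, k i + 2 ≤ p)
    (hη : ∀ i, HasLevel p lam (η i : A) (k i))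
    (f : Fin n → ℕ) (hf : ∀ i, f i < p)
    (h : (∏ i, η i ^ f i) ∈ E0 S) : ∀ i, f i = 0 := by
  classical
  by_contra hne
  push Not at hne
  obtain ⟨i0, hi0⟩ := hne
  let s : Finset (Fin n) := Finset.univ.filter (fun i => f i ≠ 0)
  have hs : s.Nonempty := ⟨i0, by simp [s, hi0]⟩
  set j := s.min' hs with hj
  have hjs : j ∈ s := Finset.min'_mem s hs
  have hfj : f j ≠ 0 := by simpa [s] using hjs
  have hmin : ∀ i, f i ≠ 0 → j ≤ i := fun i hi => Finset.min'_le s i (by simp [s, hi])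
  obtain ⟨a0, ha0⟩ := h
  -- the product in A
  have hprod : ((∏ i, η i ^ f i : Aˣ) : A)
      = (η j : A) ^ f j * ∏ i ∈ Finset.univ.erase j, (η i : A) ^ f i := by
    rw [Units.coe_prod]
    simp only [Units.val_pow_eq_pow_val]
    exact (Finset.mul_prod_erase Finset.univ (fun i => (η i : A) ^ f i) (Finset.mem_univ j)).symm
  set T : A := ∏ i ∈ Finset.univ.erase j, (η i : A) ^ f i with hT
  have hTunit : IsUnit T := by
    rw [hT]
    have : T = ((∏ i ∈ Finset.univ.erase j, η i ^ f i : Aˣ) : A) := by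
      rw [Units.coe_prod]; simp only [Units.val_pow_eq_pow_val]; rfl
    rw [← hT, this]
    exact Units.isUnit _
  -- the tail is congruent to an integer modulo lam^(k j + 1)
  have hTint : ∃ C : ℤ, lam ^ (k j + 1) ∣ T - C := by
    rw [hT]
    refine Finset.prod_induction _ (fun x => ∃ C : ℤ, lam ^ (k j + 1) ∣ x - C) ?_ ?_ ?_
    · rintro x y ⟨C, hC⟩ ⟨D, hD⟩
      refine ⟨C * D, ?_⟩
      have : x * y - ((C * D : ℤ) : A) = (x - C) * y + C * (y - D) := by push_cast; ring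
      rw [this]
      exact dvd_add (hC.mul_right _) (hD.mul_left _)
    · exact ⟨1, by simp⟩
    · intro i hi
      have hij : i ≠ j := Finset.ne_of_mem_erase hi
      by_cases hfi : f i = 0
      · exact ⟨1, by simp [hfi]⟩
      · have hji : j < i := lt_of_le_of_ne (hmin i hfi) (Ne.symm hij)
        have hkk : k j + 1 ≤ k i := hk hji
        obtain ⟨c, a, -, hca⟩ := hη i
        refine ⟨c ^ f i, ?_⟩
        push_cast
        refine Dvd.dvd.trans ?_ (sub_dvd_pow_sub_pow _ _ (f i))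
        refine (pow_dvd_pow lam hkk).trans ?_
        obtain ⟨t, ht⟩ := hca
        refine ⟨a + lam * t, ?_⟩
        linear_combination ht
  obtain ⟨C, hC⟩ := hTint
  obtain ⟨c, a, hpa, hca⟩ := hη j
  have hkj1 := hk1 j
  have hkj2 := hk2 j
  set kk := k j with hkk
  set F := f j with hF
  set u : A := (η j : A) with hu
  -- (b)
  have hb := pow_level (lam := lam) hkj1 hca F
  -- (c)
  have hc : lam ^ (kk + 1) ∣ u ^ F * T
      - ((c : A) ^ F + F * (c : A) ^ (F - 1) * (a * lam ^ kk)) * C := by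
    have : u ^ F * T - ((c : A) ^ F + F * (c : A) ^ (F - 1) * (a * lam ^ kk)) * C
        = (u ^ F - ((c : A) ^ F + F * (c : A) ^ (F - 1) * (a * lam ^ kk))) * T
          + ((c : A) ^ F + F * (c : A) ^ (F - 1) * (a * lam ^ kk)) * (T - C) := by ring
    rw [this]
    exact dvd_add (hb.mul_right _) (hC.mul_left _)
  -- (d)
  have hlp : lam ^ (kk + 1) ∣ (p : A) := S.pow_dvd_p (by omega)
  have hd : lam ^ (kk + 1) ∣ u ^ F * T - a0 := by
    rw [← hprod]
    exact hlp.trans ha0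
  -- (e)
  have he : lam ^ (kk + 1) ∣ ((a0 - c ^ F * C : ℤ) : A)
      - ((F * c ^ (F - 1) * a * C : ℤ) : A) * lam ^ kk := by
    have := dvd_sub hc hd
    convert this using 1
    push_cast
    ring
  -- (f)
  have hlam1 : lam ∣ lam ^ (kk + 1) := dvd_pow_self lam (by omega)
  have hlam2 : lam ∣ lam ^ kk := dvd_pow_self lam (by omega)
  have hf1 : lam ∣ ((a0 - c ^ F * C : ℤ) : A) := by
    have h1 := hlam1.trans he
    have h2 : lam ∣ ((F * c ^ (F - 1) * a * C : ℤ) : A) * lam ^ kk := hlam2.mul_left _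
    have := dvd_add h1 h2
    simpa using this
  have hf2 : (p : ℤ) ∣ a0 - c ^ F * C := S.dvd_int _ hf1
  have hf3 : lam ^ (kk + 1) ∣ ((a0 - c ^ F * C : ℤ) : A) := by
    obtain ⟨t, ht⟩ := hf2
    rw [ht]
    push_cast
    exact hlp.mul_right _
  -- (g)
  have hg1 : lam ^ (kk + 1) ∣ ((F * c ^ (F - 1) * a * C : ℤ) : A) * lam ^ kk := by
    have := dvd_sub hf3 he
    simpa using this
  have hg2 : lam ∣ ((F * c ^ (F - 1) * a * C : ℤ) : A) := by
    rw [pow_succ, mul_comm _ (lam ^ kk)] at hg1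
    exact (mul_dvd_mul_iff_left (pow_ne_zero _ S.lam_ne_zero)).mp hg1
  have hg3 : (p : ℤ) ∣ F * c ^ (F - 1) * a * C := S.dvd_int _ hg2
  -- (h)
  have hpZ : Prime (p : ℤ) := Nat.prime_iff_prime_int.mp hp.out
  have hpc : ¬ (p : ℤ) ∣ c := by
    refine S.not_dvd_of_unit (η j).isUnit ?_
    obtain ⟨t, ht⟩ := hca
    obtain ⟨r, hr⟩ := hlam2
    refine ⟨a * r + lam ^ kk * t, ?_⟩
    have hr' : lam ^ kk = lam * r := hr
    have : lam ^ (kk + 1) = lam * lam ^ kk := by ring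
    rw [this] at ht
    linear_combination ht + (a : A) * hr'
  have hpC : ¬ (p : ℤ) ∣ C := by
    refine S.not_dvd_of_unit hTunit ?_
    exact hlam1.trans hC
  have hpF : ¬ (p : ℤ) ∣ (F : ℤ) := by
    intro hdvd
    have h1 : (p : ℕ) ∣ F := by exact_mod_cast hdvd
    have h2 := Nat.le_of_dvd (Nat.pos_of_ne_zero hfj) h1
    have := hf j
    omega
  rcases hpZ.dvd_or_dvd hg3 with h1 | h1
  · rcases hpZ.dvd_or_dvd h1 with h2 | h2
    · rcases hpZ.dvd_or_dvd h2 with h3 | h3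
      · exact hpF h3
      · exact hpc (hpZ.dvd_of_dvd_pow h3)
    · exact hpa h2
  · exact hpC h1

/-- Integer-exponent version. -/
theorem core_int (S : Setup A p lam) {n : ℕ} (η : Fin n → Aˣ) (k : Fin n → ℕ) (hk : StrictMono k)
    (hk1 : ∀ i, 1 ≤ k i) (hk2 : ∀ i, k i + 2 ≤ p)
    (hη : ∀ i, HasLevel p lam (η i : A) (k i))
    (e : Fin n → ℤ) (h : (∏ i, η i ^ e i) ∈ E0 S) : ∀ i, (p : ℤ) ∣ e i := by
  have hp0 : 0 < p := hp.out.pos
  have hpZ : (p : ℤ) ≠ 0 := by exact_mod_cast hp0.ne'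
  let f : Fin n → ℕ := fun i => ((e i) % (p : ℤ)).toNat
  have hfe : ∀ i, ((f i : ℕ) : ℤ) = (e i) % (p : ℤ) := fun i =>
    Int.toNat_of_nonneg (Int.emod_nonneg _ hpZ)
  have hf : ∀ i, f i < p := by
    intro i
    have h2 : (e i) % (p : ℤ) < p := Int.emod_lt_of_pos _ (by exact_mod_cast hp0)
    have := hfe i
    omega
  have hsplit : (∏ i, η i ^ e i) = (∏ i, η i ^ ((e i) / (p : ℤ))) ^ p * ∏ i, η i ^ f i := by
    rw [← Finset.prod_pow, ← Finset.prod_mul_distrib]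
    refine Finset.prod_congr rfl fun i _ => ?_
    rw [← zpow_natCast (η i) (f i), hfe, ← zpow_natCast _ p, ← zpow_mul, ← zpow_add]
    congr 1
    have := Int.emod_add_mul_ediv (e i) p
    linarith [mul_comm ((e i) / (p : ℤ)) (p : ℤ)]
  have h1 : (∏ i, η i ^ f i) ∈ E0 S := by
    have h2 := pow_mem_E0 S (∏ i, η i ^ ((e i) / (p : ℤ)))
    rw [hsplit] at h
    exact (Subgroup.mul_mem_cancel_left _ h2).mp h
  have h3 := core S η k hk hk1 hk2 hη f hf h1
  intro i
  have h4 := hfe i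
  rw [h3 i] at h4
  exact Int.dvd_of_emod_eq_zero (by simpa using h4.symm)

/-- **Abstract Kummer lemma**: given generators and units of strictly increasing exact levels. -/
theorem kummer_abstract (S : Setup A p lam) {ι : Type*} [Fintype ι] {n : ℕ}
    (gens : ι → Aˣ) (hgens : ∀ x : Aˣ, ∃ e : ι → ℤ, x = ∏ i, gens i ^ e i)
    (hcard : Fintype.card ι ≤ n)
    (η : Fin n → Aˣ) (k : Fin n → ℕ) (hk : StrictMono k)
    (hk1 : ∀ i, 1 ≤ k i) (hk2 : ∀ i, k i + 2 ≤ p)
    (hη : ∀ i, HasLevel p lam (η i : A) (k i))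
    (u : Aˣ) (a : ℤ) (hu : (p : A) ∣ (u : A) - a) : ∃ v : Aˣ, u = v ^ p :=
  exists_pow_eq_of_count p n hp.out.pos (E0 S) (pow_mem_E0 S) gens hgens hcard η
    (fun e he => core_int S η k hk hk1 hk2 hη e he) u ⟨a, hu⟩

/-- A level certificate: `u = c + a * lam^k + p * S + lam^(k+1) * T`. -/
lemma hasLevel_of_cert (S : Setup A p lam) {u : A} {c a : ℤ} {k : ℕ} (hk : k + 2 ≤ p)
    (hpa : ¬ (p : ℤ) ∣ a) (Sx T : A)
    (h : u = c + a * lam ^ k + p * Sx + lam ^ (k + 1) * T) : HasLevel p lam u k := by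
  refine ⟨c, a, hpa, ?_⟩
  have : u - c - a * lam ^ k = p * Sx + lam ^ (k + 1) * T := by rw [h]; ring
  rw [this]
  exact dvd_add ((S.pow_dvd_p (by omega)).mul_right _) (dvd_mul_right _ _)

end Core

end Fermat.Agent.Kummer.KLX
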