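import Mathlib
import Fermat.Agent.Kummer.KLXCore
import Fermat.Agent.FLTReg.Basic
import Fermat.Agent.FLTReg.KLC.UnitsGen

/-!
# Kummer's lemma via an index count — cyclotomic instantiation
-/

namespace Fermat.Agent.Kummer.KLX

open NumberField

variable {p : ℕ} [hp : Fact p.Prime] {K : Type*} [Field K] [NumberField K]
  [IsCyclotomicExtension {p} ℚ K] {ζ : K} (hζ : IsPrimitiveRoot ζ p)

/-- The cyclotomic setup. -/
theorem setup : Setup (𝓞 K) p (hζ.toInteger - 1) where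
  lam_ne_zero := hζ.zeta_sub_one_prime'.ne_zero
  not_isUnit := hζ.zeta_sub_one_prime'.not_isUnit
  pow_dvd := (IsCyclotomicExtension.Rat.associated_zeta_sub_one_pow_prime p hζ).dvd
  dvd_int := fun _ h => (IsCyclotomicExtension.Rat.zeta_sub_one_dvd_intCast_iff' p hζ).mp h
  ppow := fun α => Fermat.Agent.FLTReg.Basic.exists_int_prime_dvd_pow_sub α

/-- **Kummer's lemma from explicit units of strictly increasing exact levels.** -/
theorem kummer_of_levels' (hp2 : p ≠ 2) (n : ℕ) (hn : (p - 1) / 2 ≤ n)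
    (η : Fin n → (𝓞 K)ˣ) (k : Fin n → ℕ) (hk : StrictMono k)
    (hk1 : ∀ i, 1 ≤ k i) (hk2 : ∀ i, k i + 2 ≤ p)
    (hη : ∀ i, HasLevel p (hζ.toInteger - 1) (η i : 𝓞 K) (k i))
    (u : (𝓞 K)ˣ) (a : ℤ) (hu : (p : 𝓞 K) ∣ (u : 𝓞 K) - a) : ∃ v : (𝓞 K)ˣ, u = v ^ p := by
  obtain ⟨w, hw⟩ := Fermat.Agent.FLTReg.KLC.exists_gens_units (K := K)
  refine kummer_abstract (setup hζ) w hw ?_ η k hk hk1 hk2 hη u a hu
  rw [Fintype.card_option, Fintype.card_fin,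
    Fermat.Agent.FLTReg.KLC.rank_add_one_eq (p := p) (K := K) hp2]
  exact hn

/-- `ζ` as a unit of `𝓞 K`. -/
noncomputable def zU : (𝓞 K)ˣ :=
  (hζ.toInteger_isPrimitiveRoot.isUnit (NeZero.ne p)).unit

@[simp] lemma coe_zU : ((zU hζ : (𝓞 K)ˣ) : 𝓞 K) = hζ.toInteger := rfl

/-- the cyclotomic unit `1 + ζ + ... + ζ^(g-1)` as a unit of `𝓞 K`. -/
noncomputable def gU (g : ℕ) (hg : g.Coprime p) : (𝓞 K)ˣ :=
  (hζ.toInteger_isPrimitiveRoot.geom_sum_isUnit hp.out.two_le hg).unit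

@[simp] lemma coe_gU (g : ℕ) (hg : g.Coprime p) :
    ((gU hζ g hg : (𝓞 K)ˣ) : 𝓞 K) = ∑ i ∈ Finset.range g, hζ.toInteger ^ i := rfl

/-- `ζ` has exact level 1. -/
lemma hasLevel_zeta (hp3 : 3 ≤ p) : HasLevel p (hζ.toInteger - 1) ((zU hζ : (𝓞 K)ˣ) : 𝓞 K) 1 := by
  refine ⟨1, 1, ?_, ?_⟩
  · intro h
    have := Int.le_of_dvd one_pos h
    have : (3 : ℤ) ≤ p := by exact_mod_cast hp3
    omega
  · have : ((zU hζ : (𝓞 K)ˣ) : 𝓞 K) - ((1 : ℤ) : 𝓞 K) - ((1 : ℤ) : 𝓞 K) * (hζ.toInteger - 1) ^ 1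
        = 0 := by
      simp
    rw [this]
    exact dvd_zero _

end Fermat.Agent.Kummer.KLX
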