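import Mathlib
import Fermat.Agent.Kummer.KLXCyclo

/-!
# Kummer's lemma for p = 11: explicit units with exact levels 1, 2, 4, ..., 8
(machine generated certificates)
-/

namespace Fermat.Agent.Kummer.KLX

open NumberField

/-- the `p`-part of the certificate for p = 11, level 2 -/
def certS_11_2 {A : Type*} [CommRing A] (l : A) : A :=
  (0 + l * 1)

/-- the high part of the certificate for p = 11, level 2 -/
def certT_11_2 {A : Type*} [CommRing A] (l : A) : A :=
  (30 + l * (20 + l * (7 + l * 1)))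

theorem cert_11_2 {A : Type*} [CommRing A] (l : A) :
    (l + 1) ^ 5 * (∑ i ∈ Finset.range 2, (l + 1) ^ i) ^ 1
      = ((2 : ℤ) : A) + ((25 : ℤ) : A) * l ^ 2 + ((11 : ℕ) : A) * certS_11_2 l
        + l ^ (2 + 1) * certT_11_2 l := by
  simp only [Finset.sum_range_succ, Finset.sum_range_zero, certS_11_2, certT_11_2]
  push_cast
  ring

/-- the `p`-part of the certificate for p = 11, level 4 -/
def certS_11_4 {A : Type*} [CommRing A] (l : A) : A :=
  (0 + l * (3 + l * (7 + l * 9)))

/-- the high part of the certificate for p = 11, level 4 -/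
def certT_11_4 {A : Type*} [CommRing A] (l : A) : A :=
  (35 + l * (9 + l * 1))

theorem cert_11_4 {A : Type*} [CommRing A] (l : A) :
    (l + 1) ^ 4 * (∑ i ∈ Finset.range 2, (l + 1) ^ i) ^ 1 * (∑ i ∈ Finset.range 3, (l + 1) ^ i) ^ 1
      = ((6 : ℤ) : A) + ((76 : ℤ) : A) * l ^ 4 + ((11 : ℕ) : A) * certS_11_4 l
        + l ^ (4 + 1) * certT_11_4 l := by
  simp only [Finset.sum_range_succ, Finset.sum_range_zero, certS_11_4, certT_11_4]
  push_cast
  ring

/-- the `p`-part of the certificate for p = 11, level 6 -/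
def certS_11_6 {A : Type*} [CommRing A] (l : A) : A :=
  (0 + l * (200 + l * (1050 + l * (3500 + l * (8305 + l * 14895)))))

/-- the high part of the certificate for p = 11, level 6 -/
def certT_11_6 {A : Type*} [CommRing A] (l : A) : A :=
  (258140 + l * (234353 + l * (172991 + l * (103749 + l * (50221 + l * (19361 + l * (5813 + l * (1311 + l * (209 + l * (21 + l * 1))))))))))

theorem cert_11_6 {A : Type*} [CommRing A] (l : A) :
    (l + 1) ^ 5 * (∑ i ∈ Finset.range 2, (l + 1) ^ i) ^ 1 * (∑ i ∈ Finset.range 4, (l + 1) ^ i) ^ 1 * (∑ i ∈ Finset.range 5, (l + 1) ^ i) ^ 2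
      = ((200 : ℤ) : A) + ((230020 : ℤ) : A) * l ^ 6 + ((11 : ℕ) : A) * certS_11_6 l
        + l ^ (6 + 1) * certT_11_6 l := by
  simp only [Finset.sum_range_succ, Finset.sum_range_zero, certS_11_6, certT_11_6]
  push_cast
  ring

/-- the `p`-part of the certificate for p = 11, level 8 -/
def certS_11_8 {A : Type*} [CommRing A] (l : A) : A :=
  (0 + l * (16200000 + l * (175500000 + l * (1247400000 + l * (6538893750 + l * (26941275000 + l * (90794765625 + l * 257170284375)))))))

/-- the high part of the certificate for p = 11, level 8 -/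
def certT_11_8 {A : Type*} [CommRing A] (l : A) : A :=
  (14496195448125 + l * (26910639937500 + l * (44317223128125 + l * (65192306958000 + l * (86134234555500 + l * (102659625841750 + l * (110752550568750 + l * (108438686432800 + l * (96548106999450 + l * (78275108037050 + l * (57833112144200 + l * (38952038989692 + l * (23910812810804 + l * (13367828779495 + l * (6798251729293 + l * (3139299113374 + l * (1313216293799 + l * (496117443726 + l * (168622735427 + l * (51317910948 + l * (13902469412 + l * (3328288403 + l * (697749773 + l * (126623310 + l * (19596517 + l * (2535559 + l * (266856 + l * (21946 + l * (1323 + l * (52 + l * 1))))))))))))))))))))))))))))))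

theorem cert_11_8 {A : Type*} [CommRing A] (l : A) :
    (l + 1) ^ 5 * (∑ i ∈ Finset.range 2, (l + 1) ^ i) ^ 3 * (∑ i ∈ Finset.range 3, (l + 1) ^ i) ^ 4 * (∑ i ∈ Finset.range 4, (l + 1) ^ i) ^ 1 * (∑ i ∈ Finset.range 5, (l + 1) ^ i) ^ 5
      = ((8100000 : ℤ) : A) + ((6867037483750 : ℤ) : A) * l ^ 8 + ((11 : ℕ) : A) * certS_11_8 l
        + l ^ (8 + 1) * certT_11_8 l := by
  simp only [Finset.sum_range_succ, Finset.sum_range_zero, certS_11_8, certT_11_8]
  push_cast
  ring

variable {K : Type*} [Field K] [NumberField K] [IsCyclotomicExtension {11} ℚ K]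

/-- **Kummer's lemma for `p = 11`.** -/
theorem kummer_lemma_eleven (u : (𝓞 K)ˣ) (a : ℤ) (hu : ((11 : ℕ) : 𝓞 K) ∣ (u : 𝓞 K) - a) :
    ∃ v : (𝓞 K)ˣ, u = v ^ 11 := by
  have : Fact (Nat.Prime 11) := ⟨by norm_num⟩
  have hζ := IsCyclotomicExtension.zeta_spec 11 ℚ K
  refine kummer_of_levels' hζ (by norm_num) 5 (by norm_num)
    ![zU hζ, zU hζ ^ 5 * gU hζ 2 (by norm_num) ^ 1, zU hζ ^ 4 * gU hζ 2 (by norm_num) ^ 1 * gU hζ 3 (by norm_num) ^ 1, zU hζ ^ 5 * gU hζ 2 (by norm_num) ^ 1 * gU hζ 4 (by norm_num) ^ 1 * gU hζ 5 (by norm_num) ^ 2, zU hζ ^ 5 * gU hζ 2 (by norm_num) ^ 3 * gU hζ 3 (by norm_num) ^ 4 * gU hζ 4 (by norm_num) ^ 1 * gU hζ 5 (by norm_num) ^ 5]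
    ![1, 2, 4, 6, 8] ?_ ?_ ?_ ?_ u a hu
  · intro i j hij
    fin_cases i <;> fin_cases j <;> simp at hij ⊢
  · intro i
    fin_cases i <;> simp
  · intro i
    fin_cases i <;> simp
  · intro i
    fin_cases i
    · exact hasLevel_zeta hζ (by norm_num)
    · show HasLevel 11 (hζ.toInteger - 1) (((zU hζ ^ 5 * gU hζ 2 (by norm_num) ^ 1 : (𝓞 K)ˣ)) : 𝓞 K) 2
      refine hasLevel_of_cert (setup hζ) (c := 2) (a := 25) (by norm_num) (by norm_num)
        (certS_11_2 (hζ.toInteger - 1)) (certT_11_2 (hζ.toInteger - 1)) ?_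
      have h := cert_11_2 (hζ.toInteger - 1)
      simp only [sub_add_cancel] at h
      simpa only [Units.val_mul, Units.val_pow_eq_pow_val, coe_zU, coe_gU] using h
    · show HasLevel 11 (hζ.toInteger - 1) (((zU hζ ^ 4 * gU hζ 2 (by norm_num) ^ 1 * gU hζ 3 (by norm_num) ^ 1 : (𝓞 K)ˣ)) : 𝓞 K) 4
      refine hasLevel_of_cert (setup hζ) (c := 6) (a := 76) (by norm_num) (by norm_num)
        (certS_11_4 (hζ.toInteger - 1)) (certT_11_4 (hζ.toInteger - 1)) ?_
      have h := cert_11_4 (hζ.toInteger - 1)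
      simp only [sub_add_cancel] at h
      simpa only [Units.val_mul, Units.val_pow_eq_pow_val, coe_zU, coe_gU] using h
    · show HasLevel 11 (hζ.toInteger - 1) (((zU hζ ^ 5 * gU hζ 2 (by norm_num) ^ 1 * gU hζ 4 (by norm_num) ^ 1 * gU hζ 5 (by norm_num) ^ 2 : (𝓞 K)ˣ)) : 𝓞 K) 6
      refine hasLevel_of_cert (setup hζ) (c := 200) (a := 230020) (by norm_num) (by norm_num)
        (certS_11_6 (hζ.toInteger - 1)) (certT_11_6 (hζ.toInteger - 1)) ?_
      have h := cert_11_6 (hζ.toInteger - 1)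
      simp only [sub_add_cancel] at h
      simpa only [Units.val_mul, Units.val_pow_eq_pow_val, coe_zU, coe_gU] using h
    · show HasLevel 11 (hζ.toInteger - 1) (((zU hζ ^ 5 * gU hζ 2 (by norm_num) ^ 3 * gU hζ 3 (by norm_num) ^ 4 * gU hζ 4 (by norm_num) ^ 1 * gU hζ 5 (by norm_num) ^ 5 : (𝓞 K)ˣ)) : 𝓞 K) 8
      refine hasLevel_of_cert (setup hζ) (c := 8100000) (a := 6867037483750) (by norm_num) (by norm_num)
        (certS_11_8 (hζ.toInteger - 1)) (certT_11_8 (hζ.toInteger - 1)) ?_
      have h := cert_11_8 (hζ.toInteger - 1)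
      simp only [sub_add_cancel] at h
      simpa only [Units.val_mul, Units.val_pow_eq_pow_val, coe_zU, coe_gU] using h

end Fermat.Agent.Kummer.KLX

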