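import Mathlib
import Fermat.Agent.Kummer.KLXCyclo

/-!
# Kummer's lemma for p = 13: explicit units with exact levels 1, 2, 4, ..., 10
(machine generated certificates)
-/

namespace Fermat.Agent.Kummer.KLX

open NumberField

/-- the `p`-part of the certificate for p = 13, level 2 -/
def certS_13_2 {A : Type*} [CommRing A] (l : A) : A :=
  (0 + l * 1)

/-- the high part of the certificate for p = 13, level 2 -/
def certT_13_2 {A : Type*} [CommRing A] (l : A) : A :=
  (55 + l * (50 + l * (27 + l * (8 + l * 1))))

theorem cert_13_2 {A : Type*} [CommRing A] (l : A) :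
    (l + 1) ^ 6 * (∑ i ∈ Finset.range 2, (l + 1) ^ i) ^ 1
      = ((2 : ℤ) : A) + ((36 : ℤ) : A) * l ^ 2 + ((13 : ℕ) : A) * certS_13_2 l
        + l ^ (2 + 1) * certT_13_2 l := by
  simp only [Finset.sum_range_succ, Finset.sum_range_zero, certS_13_2, certT_13_2]
  push_cast
  ring

/-- the `p`-part of the certificate for p = 13, level 4 -/
def certS_13_4 {A : Type*} [CommRing A] (l : A) : A :=
  (0 + l * (10 + l * (30 + l * 55)))

/-- the high part of the certificate for p = 13, level 4 -/
def certT_13_4 {A : Type*} [CommRing A] (l : A) : A :=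
  (783 + l * (494 + l * (220 + l * (66 + l * (12 + l * 1)))))

theorem cert_13_4 {A : Type*} [CommRing A] (l : A) :
    (l + 1) ^ 3 * (∑ i ∈ Finset.range 4, (l + 1) ^ i) ^ 1 * (∑ i ∈ Finset.range 5, (l + 1) ^ i) ^ 1
      = ((20 : ℤ) : A) + ((889 : ℤ) : A) * l ^ 4 + ((13 : ℕ) : A) * certS_13_4 l
        + l ^ (4 + 1) * certT_13_4 l := by
  simp only [Finset.sum_range_succ, Finset.sum_range_zero, certS_13_4, certT_13_4]
  push_cast
  ring

/-- the `p`-part of the certificate for p = 13, level 6 -/
def certS_13_6 {A : Type*} [CommRing A] (l : A) : A :=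
  (0 + l * (384 + l * (1216 + l * (2464 + l * (3536 + l * 3768)))))

/-- the high part of the certificate for p = 13, level 6 -/
def certT_13_6 {A : Type*} [CommRing A] (l : A) : A :=
  (24534 + l * (11568 + l * (4089 + l * (1050 + l * (185 + l * (20 + l * 1))))))

theorem cert_13_6 {A : Type*} [CommRing A] (l : A) :
    (∑ i ∈ Finset.range 2, (l + 1) ^ i) ^ 5 * (∑ i ∈ Finset.range 4, (l + 1) ^ i) ^ 1 * (∑ i ∈ Finset.range 6, (l + 1) ^ i) ^ 1
      = ((768 : ℤ) : A) + ((39636 : ℤ) : A) * l ^ 6 + ((13 : ℕ) : A) * certS_13_6 l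
        + l ^ (6 + 1) * certT_13_6 l := by
  simp only [Finset.sum_range_succ, Finset.sum_range_zero, certS_13_6, certT_13_6]
  push_cast
  ring

/-- the `p`-part of the certificate for p = 13, level 8 -/
def certS_13_8 {A : Type*} [CommRing A] (l : A) : A :=
  (0 + l * (5308416 + l * (50429952 + l * (310984704 + l * (1399283712 + l * (4895428608 + l * (13855791104 + l * 32591606784)))))))

/-- the high part of the certificate for p = 13, level 8 -/
def certT_13_8 {A : Type*} [CommRing A] (l : A) : A :=
  (1445604435712 + l * (2149633170560 + l * (2798795710912 + l * (3210473919136 + l * (3259843573680 + l * (2940030284776 + l * (2360873304140 + l * (1690411676144 + l * (1079871670416 + l * (615341834934 + l * (312445658131 + l * (141099315840 + l * (56512415673 + l * (19996437530 + l * (6219248226 + l * (1689018100 + l * (397146472 + l * (79966550 + l * (13590434 + l * (1912014 + l * (216734 + l * (19022 + l * (1213 + l * (50 + l * 1))))))))))))))))))))))))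

theorem cert_13_8 {A : Type*} [CommRing A] (l : A) :
    (l + 1) ^ 6 * (∑ i ∈ Finset.range 2, (l + 1) ^ i) ^ 12 * (∑ i ∈ Finset.range 3, (l + 1) ^ i) ^ 2 * (∑ i ∈ Finset.range 4, (l + 1) ^ i) ^ 2 * (∑ i ∈ Finset.range 6, (l + 1) ^ i) ^ 1
      = ((3538944 : ℤ) : A) + ((844287586816 : ℤ) : A) * l ^ 8 + ((13 : ℕ) : A) * certS_13_8 l
        + l ^ (8 + 1) * certT_13_8 l := by
  simp only [Finset.sum_range_succ, Finset.sum_range_zero, certS_13_8, certT_13_8]
  push_cast
  ring

/-- the `p`-part of the certificate for p = 13, level 10 -/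
def certS_13_10 {A : Type*} [CommRing A] (l : A) : A :=
  (0 + l * (140896402145280 + l * (2727910897090560 + l * (34950135309926400 + l * (333263238441467904 + l * (2522021528598478848 + l * (15773627854186610688 + l * (83837034519953670144 + l * (386436567370467115008 + l * 1568757038900500758528)))))))))

/-- the high part of the certificate for p = 13, level 10 -/
def certT_13_10 {A : Type*} [CommRing A] (l : A) : A :=
  (240392785262824302575616 + l * (710447381930211035578368 + l * (1917614224688386116943872 + l * (4753632894795823495774208 + l * (10873802484435801755090944 + l * (23045914339430811491303424 + l * (45413974105128580431544320 + l * (83463319095369961548234752 + l * (143440700729319919215476736 + l * (231066570075222720924733440 + l * (349610471684564472264642560 + l * (497739761376038169244412928 + l * (667859880071974483847753728 + l * (845756580380902080441332736 + l * (1012093527584439117437027328 + l * (1145732263585519737928772352 + l * (1228131499689247574648400384 + l * (1247564535307747638827265024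 + l * (1201833521234246958064065792 + l * (1098622811436389366622244736 + l * (953436820243523112784315392 + l * (785866594405281345537737856 + l * (615395763116668715566688128 + l * (457937522938837795042920096 + l * (323865433832246666193695808 + l * (217697926220922949219880912 + l * (139079965199978241099426864 + l * (84440232452340611453913564 + l * (48711033643762559000385616 + l * (26691985929214260505096644 + l * (13888513383457139108199140 + l * (6858981886050070952586375 + l * (3213369278191256803495146 + l * (1427200987117806394186074 + l * (600503391112906995291003 + l * (239159025805286405926164 + l * (90070678638097294220880 + l * (32043108760521806745193 + l * (10754970491273985986187 + l * (3401021467464762576422 + l * (1011726680750984903493 + l * (282628369456576547040 + l * (73997688690397141215 + l * (18118175608248100056 + l * (4138334070623742333 + l * (879284006507821464 + l * (173234828370879001 + l * (31532201191815294 + l * (5280289712861013 + l * (809516322219146 + l * (112973799677085 + l *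 (14255451325482 + l * (1613320522291 + l * (162150308448 + l * (14297482005 + l * (1088893565 + l * (70180449 + l * (3722114 + l * (155972 + l * (4842 + l * (99 + l * 1)))))))))))))))))))))))))))))))))))))))))))))))))))))))))))))

theorem cert_13_10 {A : Type*} [CommRing A] (l : A) :
    (l + 1) ^ 6 * (∑ i ∈ Finset.range 2, (l + 1) ^ i) ^ 9 * (∑ i ∈ Finset.range 3, (l + 1) ^ i) ^ 4 * (∑ i ∈ Finset.range 4, (l + 1) ^ i) ^ 10 * (∑ i ∈ Finset.range 5, (l + 1) ^ i) ^ 1 * (∑ i ∈ Finset.range 6, (l + 1) ^ i) ^ 3
      = ((46965467381760 : ℤ) : A) + ((73800730329399888445440 : ℤ) : A) * l ^ 10 + ((13 : ℕ) : A) * certS_13_10 l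
        + l ^ (10 + 1) * certT_13_10 l := by
  simp only [Finset.sum_range_succ, Finset.sum_range_zero, certS_13_10, certT_13_10]
  push_cast
  ring

variable {K : Type*} [Field K] [NumberField K] [IsCyclotomicExtension {13} ℚ K]

/-- **Kummer's lemma for `p = 13`.** -/
theorem kummer_lemma_thirteen (u : (𝓞 K)ˣ) (a : ℤ) (hu : ((13 : ℕ) : 𝓞 K) ∣ (u : 𝓞 K) - a) :
    ∃ v : (𝓞 K)ˣ, u = v ^ 13 := by
  have : Fact (Nat.Prime 13) := ⟨by norm_num⟩
  have hζ := IsCyclotomicExtension.zeta_spec 13 ℚ K
  refine kummer_of_levels' hζ (by norm_num) 6 (by norm_num)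
    ![zU hζ, zU hζ ^ 6 * gU hζ 2 (by norm_num) ^ 1, zU hζ ^ 3 * gU hζ 4 (by norm_num) ^ 1 * gU hζ 5 (by norm_num) ^ 1, gU hζ 2 (by norm_num) ^ 5 * gU hζ 4 (by norm_num) ^ 1 * gU hζ 6 (by norm_num) ^ 1, zU hζ ^ 6 * gU hζ 2 (by norm_num) ^ 12 * gU hζ 3 (by norm_num) ^ 2 * gU hζ 4 (by norm_num) ^ 2 * gU hζ 6 (by norm_num) ^ 1, zU hζ ^ 6 * gU hζ 2 (by norm_num) ^ 9 * gU hζ 3 (by norm_num) ^ 4 * gU hζ 4 (by norm_num) ^ 10 * gU hζ 5 (by norm_num) ^ 1 * gU hζ 6 (by norm_num) ^ 3]
    ![1, 2, 4, 6, 8, 10] ?_ ?_ ?_ ?_ u a hu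
  · intro i j hij
    fin_cases i <;> fin_cases j <;> simp at hij ⊢
  · intro i
    fin_cases i <;> simp
  · intro i
    fin_cases i <;> simp
  · intro i
    fin_cases i
    · exact hasLevel_zeta hζ (by norm_num)
    · show HasLevel 13 (hζ.toInteger - 1) (((zU hζ ^ 6 * gU hζ 2 (by norm_num) ^ 1 : (𝓞 K)ˣ)) : 𝓞 K) 2
      refine hasLevel_of_cert (setup hζ) (c := 2) (a := 36) (by norm_num) (by norm_num)
        (certS_13_2 (hζ.toInteger - 1)) (certT_13_2 (hζ.toInteger - 1)) ?_
      have h := cert_13_2 (hζ.toInteger - 1)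
      simp only [sub_add_cancel] at h
      simpa only [Units.val_mul, Units.val_pow_eq_pow_val, coe_zU, coe_gU] using h
    · show HasLevel 13 (hζ.toInteger - 1) (((zU hζ ^ 3 * gU hζ 4 (by norm_num) ^ 1 * gU hζ 5 (by norm_num) ^ 1 : (𝓞 K)ˣ)) : 𝓞 K) 4
      refine hasLevel_of_cert (setup hζ) (c := 20) (a := 889) (by norm_num) (by norm_num)
        (certS_13_4 (hζ.toInteger - 1)) (certT_13_4 (hζ.toInteger - 1)) ?_
      have h := cert_13_4 (hζ.toInteger - 1)
      simp only [sub_add_cancel] at h
      simpa only [Units.val_mul, Units.val_pow_eq_pow_val, coe_zU, coe_gU] using h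
    · show HasLevel 13 (hζ.toInteger - 1) (((gU hζ 2 (by norm_num) ^ 5 * gU hζ 4 (by norm_num) ^ 1 * gU hζ 6 (by norm_num) ^ 1 : (𝓞 K)ˣ)) : 𝓞 K) 6
      refine hasLevel_of_cert (setup hζ) (c := 768) (a := 39636) (by norm_num) (by norm_num)
        (certS_13_6 (hζ.toInteger - 1)) (certT_13_6 (hζ.toInteger - 1)) ?_
      have h := cert_13_6 (hζ.toInteger - 1)
      simp only [sub_add_cancel] at h
      simpa only [Units.val_mul, Units.val_pow_eq_pow_val, coe_zU, coe_gU] using h
    · show HasLevel 13 (hζ.toInteger - 1) (((zU hζ ^ 6 * gU hζ 2 (by norm_num) ^ 12 * gU hζ 3 (by norm_num) ^ 2 * gU hζ 4 (by norm_num) ^ 2 * gU hζ 6 (by norm_num) ^ 1 : (𝓞 K)ˣ)) : 𝓞 K) 8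
      refine hasLevel_of_cert (setup hζ) (c := 3538944) (a := 844287586816) (by norm_num) (by norm_num)
        (certS_13_8 (hζ.toInteger - 1)) (certT_13_8 (hζ.toInteger - 1)) ?_
      have h := cert_13_8 (hζ.toInteger - 1)
      simp only [sub_add_cancel] at h
      simpa only [Units.val_mul, Units.val_pow_eq_pow_val, coe_zU, coe_gU] using h
    · show HasLevel 13 (hζ.toInteger - 1) (((zU hζ ^ 6 * gU hζ 2 (by norm_num) ^ 9 * gU hζ 3 (by norm_num) ^ 4 * gU hζ 4 (by norm_num) ^ 10 * gU hζ 5 (by norm_num) ^ 1 * gU hζ 6 (by norm_num) ^ 3 : (𝓞 K)ˣ)) : 𝓞 K) 10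
      refine hasLevel_of_cert (setup hζ) (c := 46965467381760) (a := 73800730329399888445440) (by norm_num) (by norm_num)
        (certS_13_10 (hζ.toInteger - 1)) (certT_13_10 (hζ.toInteger - 1)) ?_
      have h := cert_13_10 (hζ.toInteger - 1)
      simp only [sub_add_cancel] at h
      simpa only [Units.val_mul, Units.val_pow_eq_pow_val, coe_zU, coe_gU] using h

end Fermat.Agent.Kummer.KLX

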