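import Mathlib
import Fermat.Agent.Kummer.KLXCyclo

/-!
# Kummer's lemma for p = 7: explicit units with exact levels 1, 2, 4, ..., 4
(machine generated certificates)
-/

namespace Fermat.Agent.Kummer.KLX

open NumberField

/-- the `p`-part of the certificate for p = 7, level 2 -/
def certS_7_2 {A : Type*} [CommRing A] (l : A) : A :=
  (0 + l * 1)

/-- the high part of the certificate for p = 7, level 2 -/
def certT_7_2 {A : Type*} [CommRing A] (l : A) : A :=
  (5 + l * 1)

theorem cert_7_2 {A : Type*} [CommRing A] (l : A) :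
    (l + 1) ^ 3 * (∑ i ∈ Finset.range 2, (l + 1) ^ i) ^ 1
      = ((2 : ℤ) : A) + ((9 : ℤ) : A) * l ^ 2 + ((7 : ℕ) : A) * certS_7_2 l
        + l ^ (2 + 1) * certT_7_2 l := by
  simp only [Finset.sum_range_succ, Finset.sum_range_zero, certS_7_2, certT_7_2]
  push_cast
  ring

/-- the `p`-part of the certificate for p = 7, level 4 -/
def certS_7_4 {A : Type*} [CommRing A] (l : A) : A :=
  (0 + l * (12 + l * (37 + l * 66)))

/-- the high part of the certificate for p = 7, level 4 -/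
def certT_7_4 {A : Type*} [CommRing A] (l : A) : A :=
  (397 + l * (199 + l * (64 + l * (12 + l * 1))))

theorem cert_7_4 {A : Type*} [CommRing A] (l : A) :
    (l + 1) ^ 5 * (∑ i ∈ Finset.range 2, (l + 1) ^ i) ^ 2 * (∑ i ∈ Finset.range 3, (l + 1) ^ i) ^ 1
      = ((12 : ℤ) : A) + ((526 : ℤ) : A) * l ^ 4 + ((7 : ℕ) : A) * certS_7_4 l
        + l ^ (4 + 1) * certT_7_4 l := by
  simp only [Finset.sum_range_succ, Finset.sum_range_zero, certS_7_4, certT_7_4]
  push_cast
  ring

variable {K : Type*} [Field K] [NumberField K] [IsCyclotomicExtension {7} ℚ K]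

/-- **Kummer's lemma for `p = 7`.** -/
theorem kummer_lemma_seven (u : (𝓞 K)ˣ) (a : ℤ) (hu : ((7 : ℕ) : 𝓞 K) ∣ (u : 𝓞 K) - a) :
    ∃ v : (𝓞 K)ˣ, u = v ^ 7 := by
  have : Fact (Nat.Prime 7) := ⟨by norm_num⟩
  have hζ := IsCyclotomicExtension.zeta_spec 7 ℚ K
  refine kummer_of_levels' hζ (by norm_num) 3 (by norm_num)
    ![zU hζ, zU hζ ^ 3 * gU hζ 2 (by norm_num) ^ 1, zU hζ ^ 5 * gU hζ 2 (by norm_num) ^ 2 * gU hζ 3 (by norm_num) ^ 1]
    ![1, 2, 4] ?_ ?_ ?_ ?_ u a hu
  · intro i j hij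
    fin_cases i <;> fin_cases j <;> simp at hij ⊢
  · intro i
    fin_cases i <;> simp
  · intro i
    fin_cases i <;> simp
  · intro i
    fin_cases i
    · exact hasLevel_zeta hζ (by norm_num)
    · show HasLevel 7 (hζ.toInteger - 1) (((zU hζ ^ 3 * gU hζ 2 (by norm_num) ^ 1 : (𝓞 K)ˣ)) : 𝓞 K) 2
      refine hasLevel_of_cert (setup hζ) (c := 2) (a := 9) (by norm_num) (by norm_num)
        (certS_7_2 (hζ.toInteger - 1)) (certT_7_2 (hζ.toInteger - 1)) ?_
      have h := cert_7_2 (hζ.toInteger - 1)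
      simp only [sub_add_cancel] at h
      simpa only [Units.val_mul, Units.val_pow_eq_pow_val, coe_zU, coe_gU] using h
    · show HasLevel 7 (hζ.toInteger - 1) (((zU hζ ^ 5 * gU hζ 2 (by norm_num) ^ 2 * gU hζ 3 (by norm_num) ^ 1 : (𝓞 K)ˣ)) : 𝓞 K) 4
      refine hasLevel_of_cert (setup hζ) (c := 12) (a := 526) (by norm_num) (by norm_num)
        (certS_7_4 (hζ.toInteger - 1)) (certT_7_4 (hζ.toInteger - 1)) ?_
      have h := cert_7_4 (hζ.toInteger - 1)
      simp only [sub_add_cancel] at h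
      simpa only [Units.val_mul, Units.val_pow_eq_pow_val, coe_zU, coe_gU] using h

end Fermat.Agent.Kummer.KLX

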