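import Mathlib
import Fermat.Agent.Kummer.KLX5
import Fermat.Agent.Kummer.KLX7
import Fermat.Agent.Kummer.KLX11
import Fermat.Agent.Kummer.KLX13

/-!
# Kummer's lemma for p ∈ {5, 7, 11, 13}

A unit of the ring of integers of the `p`-th cyclotomic field that is congruent to a rational
integer modulo `p` is a `p`-th power of a unit.  Proof: index count (Dirichlet's unit theorem
bounds `[E : E^p]` from above; explicit cyclotomic units with strictly increasing `λ`-adic exact
levels `1, 2, 4, …, p - 3` bound `[E : E₀]` from below, `E₀` the units congruent to an integer).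
No class-number input, no Hilbert 90/92/94.
-/

namespace Fermat.Agent.Kummer.KLX

open NumberField

/-- **Kummer's lemma** for `p ∈ {5, 7, 11, 13}`, in the shape used by the Case II descent. -/
theorem kummer_lemma {p : ℕ} [Fact p.Prime] (hp : p = 5 ∨ p = 7 ∨ p = 11 ∨ p = 13)
    {K : Type*} [Field K] [NumberField K] [IsCyclotomicExtension {p} ℚ K]
    (u : (𝓞 K)ˣ) (h : ∃ n : ℤ, (p : 𝓞 K) ∣ (u : 𝓞 K) - n) : ∃ v : (𝓞 K)ˣ, u = v ^ p := by
  obtain ⟨n, hn⟩ := h
  rcases hp with rfl | rfl | rfl | rfl
  · exact kummer_lemma_five u n hn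
  · exact kummer_lemma_seven u n hn
  · exact kummer_lemma_eleven u n hn
  · exact kummer_lemma_thirteen u n hn

end Fermat.Agent.Kummer.KLX
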