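import Fermat.Agent.FLTReg.Assembly
import Fermat.Agent.Kummer.KLX

/-!
# Fermat's Last Theorem for the exponents 5, 7, 11, 13

Final wiring: helper18's `Assembly` (Case I Sophie Germain, Case II descent, class number one)
plus Kummer's lemma `Fermat.Agent.Kummer.KLX.kummer_lemma`.
-/

namespace Fermat.Agent.Kummer.KLXFLT

open NumberField Fermat.Agent.FLTReg Fermat.Agent.FLTReg.Assembly

theorem kummerLemmaFor (p : ℕ) [Fact p.Prime] (hp : p = 5 ∨ p = 7 ∨ p = 11 ∨ p = 13) :
    KummerLemmaFor p (CyclotomicField p ℚ) := by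
  have := Top.isCyclotomicExtension_cyclotomicField p
  intro u h
  exact Fermat.Agent.Kummer.KLX.kummer_lemma (p := p) hp u h

theorem flt_five : FermatLastTheoremFor 5 :=
  haveI := fact_prime_five
  flt_five_of_KL (kummerLemmaFor 5 (by norm_num))

theorem flt_seven : FermatLastTheoremFor 7 :=
  haveI := fact_prime_seven
  flt_seven_of_KL (kummerLemmaFor 7 (by norm_num))

theorem flt_eleven : FermatLastTheoremFor 11 :=
  haveI := fact_prime_eleven
  flt_eleven_of_KL (kummerLemmaFor 11 (by norm_num))

theorem flt_thirteen : FermatLastTheoremFor 13 :=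
  haveI := fact_prime_thirteen
  flt_thirteen_of_KL (kummerLemmaFor 13 (by norm_num))

end Fermat.Agent.Kummer.KLXFLT
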