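import Mathlib

/-!
# S10 / S11 via Fermat's Last Theorem for the exponents 5, 7, 11, 13  (plan: helper17, report #322)

`S10` and `S11` take a `FreyPackage P` with `P.p ∈ {5,7,13}` resp. `P.p = 11`; such a package
contains a counterexample to FLT for the exponent `P.p`, so both statements follow from
`FermatLastTheoremFor p` for `p = 5, 7, 11, 13`.  These four primes are regular, and moreover
`ℤ[ζ_p]` is a PID, so Kummer's proof works elementwise (generalising Mathlib's `FLT/Three.lean`).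

This file fixes the INTERFACES (definitions only, no proofs).  Each package proves one theorem
whose statement is written (commented) below, in its own file `Fermat/Agent/Kummer/<Pkg>.lean`,
namespace `Fermat.Agent.Kummer`.
-/

set_option autoImplicit false

namespace Fermat.Agent.Kummer

open NumberField

/-- Case I of FLT for the exponent `p`: no solutions with `p ∤ a b c`. -/
def CaseI (p : ℕ) : Prop :=
  ∀ a b c : ℤ, ¬ (p : ℤ) ∣ a * b * c → a ^ p + b ^ p ≠ c ^ p

/-- Case II of FLT for the exponent `p`, normalised as in Mathlib's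
`fermatLastTheoremThree_of_three_dvd_only_c`. -/
def CaseII (p : ℕ) : Prop :=
  ∀ a b c : ℤ, c ≠ 0 → ¬ (p : ℤ) ∣ a → ¬ (p : ℤ) ∣ b → (p : ℤ) ∣ c → IsCoprime a b →
    a ^ p + b ^ p ≠ c ^ p

/-- Kummer's lemma for the field `K` (to be used with `K` the `p`-th cyclotomic field):
a unit of `𝓞 K` congruent to a rational integer modulo `p` is a `p`-th power of a unit. -/
def KummerLemma (p : ℕ) (K : Type*) [Field K] [NumberField K] : Prop :=
  ∀ u : (𝓞 K)ˣ, (∃ n : ℤ, (p : 𝓞 K) ∣ (u : 𝓞 K) - (n : 𝓞 K)) → ∃ v : (𝓞 K)ˣ, u = v ^ p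

/-- A "regularity certificate": `(p-1)/2` explicit units sitting at pairwise distinct levels
`1 ≤ k ≤ p - 2` of the filtration `F_k = {u unit | u ≡ integer mod λ^k}`, `λ = ζ - 1`:
`η i ≡ a i + b i * λ ^ k i  (mod λ ^ (k i + 1))` with `p ∤ b i`. -/
structure UnitCertificate (p : ℕ) [NeZero p] {K : Type*} [Field K] [NumberField K] {ζ : K}
    (hζ : IsPrimitiveRoot ζ p) where
  /-- the units -/
  η : Fin ((p - 1) / 2) → (𝓞 K)ˣ
  /-- their levels -/
  k : Fin ((p - 1) / 2) → ℕ
  /-- constant terms -/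
  a : Fin ((p - 1) / 2) → ℤ
  /-- leading coefficients -/
  b : Fin ((p - 1) / 2) → ℤ
  k_strictMono : StrictMono k
  one_le_k : ∀ i, 1 ≤ k i
  k_add_two_le : ∀ i, k i + 2 ≤ p
  not_dvd_b : ∀ i, ¬ (p : ℤ) ∣ b i
  cong : ∀ i, (hζ.toInteger - 1) ^ (k i + 1) ∣
    (η i : 𝓞 K) - (a i : 𝓞 K) - (b i : 𝓞 K) * (hζ.toInteger - 1) ^ (k i)

/-!
## Packages (statements; each to be proved in its own file)

* `R` (Reduction.lean):
  `theorem flt_of_caseI_of_caseII {p : ℕ} (hp : p.Prime) (hodd : p ≠ 2)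
      (h1 : CaseI p) (h2 : CaseII p) : FermatLastTheoremFor p`

* `SG` (SophieGermain.lean):
  `theorem caseI_of_auxPrime {p q : ℕ} (hp : p.Prime) (hodd : p ≠ 2) [Fact q.Prime]
      (h1 : ∀ x y z : ZMod q, x ^ p + y ^ p + z ^ p = 0 → x = 0 ∨ y = 0 ∨ z = 0)
      (h2 : ∀ x : ZMod q, x ^ p ≠ (p : ZMod q)) : CaseI p`
  and `caseI_five, caseI_seven, caseI_eleven, caseI_thirteen : CaseI 5 / 7 / 11 / 13`
  (aux primes 11, 29, 23, 53).

* `CN7`, `CN11`, `CN13` (ClassNumber7.lean, ...):
  `theorem pid_seven (K : Type*) [Field K] [NumberField K] [IsCyclotomicExtension {7} ℚ K] :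
      IsPrincipalIdealRing (𝓞 K)`   (same for 11, 13; for 5 use Mathlib's
  `IsCyclotomicExtension.Rat.five_pid`).

* `K1` (KummerLemma.lean):
  `theorem kummerLemma_of_certificate {p : ℕ} [Fact p.Prime] (hp : p ≠ 2) {K : Type*} [Field K]
      [NumberField K] [IsCyclotomicExtension {p} ℚ K] {ζ : K} (hζ : IsPrimitiveRoot ζ p)
      (C : UnitCertificate p hζ) : KummerLemma p K`

* `K2-5`, `K2-7`, `K2-11`, `K2-13` (Certificate5.lean, ...):
  `noncomputable def certificate_five {K : Type*} [Field K] [NumberField K]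
      [IsCyclotomicExtension {5} ℚ K] {ζ : K} (hζ : IsPrimitiveRoot ζ 5) : UnitCertificate 5 hζ`

* `C2` (CaseII*.lean):
  `theorem caseII_of_pid_of_kummerLemma {p : ℕ} [Fact p.Prime] (hp : 5 ≤ p) (K : Type*) [Field K]
      [NumberField K] [IsCyclotomicExtension {p} ℚ K] [IsPrincipalIdealRing (𝓞 K)]
      (hK : KummerLemma p K) : CaseII p`

* `A` (Assembly.lean): `FermatLastTheoremFor 5`, `7`, `11`, `13` with `K := CyclotomicField p ℚ`.
* `W`: `Fermat/Agent/S10.lean`, `Fermat/Agent/S11.lean`.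
-/

end Fermat.Agent.Kummer
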